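import Mathlib
import Fermat.Agent.S18.T.Defs
import Fermat.Agent.S18.T.AbhyankarCore
import Fermat.Agent.S18.T.TameOther

/-!
# S18, package RH : general valuation theory

* `S18IsDisc V π` : the valuation ring `V` is discrete with uniformiser `π`;
* `s18r_disc_of_arch` : a uniformiser + the archimedean property give discreteness;
* (X) `s18r_exists_extension` : Chevalley's extension theorem along a field embedding;
* (D) `s18r_descend`, `s18r_descend_val` : discreteness descends to a subfield; comparison of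
  uniformisers (ramification index `r`);
* `s18r_arch_of_disc` : algebraic elements over a subfield with discrete valuation;
* (U) `s18r_kummer_unram` : `F₁ = F₀(y)`, `y ^ p = f`, residue characteristic `0`, `p ∣ ord f`:
  a uniformiser of `W ∩ F₀` is a uniformiser of `W` (via `s18ta_unif_core`).
-/

set_option autoImplicit false
set_option linter.unusedSectionVars false

noncomputable section

namespace Fermat.Agent.S18

open Polynomial IntermediateField

/-- `V` is discrete with uniformiser `π`: `π ≠ 0` is a uniformiser and every nonzero element has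
valuation an integral power of `v π`. -/
def S18IsDisc {F : Type*} [Field F] (V : ValuationSubring F) (π : F) : Prop :=
  π ≠ 0 ∧ S18IsUnif V π ∧ ∀ x : F, x ≠ 0 → ∃ k : ℤ, V.valuation x = V.valuation π ^ k

section Disc

variable {F : Type*} [Field F] {Γ : Type*} [LinearOrderedCommGroupWithZero Γ]

/-- a uniformiser (in the sense `v π < 1`, `v x < 1 → v x ≤ v π`) for which the valuation is
archimedean generates the value group. -/
theorem s18r_disc_of_arch (v : Valuation F Γ) (π : F) (hπ0 : π ≠ 0)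
    (hπ : ∀ x : F, v x < 1 → v x ≤ v π)
    (harch : ∀ x : F, x ≠ 0 → ∃ K : ℕ, v π ^ K ≤ v x) :
    ∀ x : F, x ≠ 0 → ∃ k : ℤ, v x = v π ^ k := by
  have hvπ0 : v π ≠ 0 := (Valuation.ne_zero_iff _).mpr hπ0
  -- integral elements
  have key : ∀ K : ℕ, ∀ x : F, x ≠ 0 → v x ≤ 1 → v π ^ K ≤ v x → ∃ k : ℕ, v x = v π ^ k := by
    intro K
    induction K with
    | zero =>
      intro x _ hx1 hK
      rw [pow_zero] at hK
      exact ⟨0, by rw [pow_zero]; exact le_antisymm hx1 hK⟩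
    | succ K ih =>
      intro x hx0 hx1 hK
      rcases lt_or_eq_of_le hx1 with hlt | heq
      · have hle := hπ x hlt
        have hx' : x / π ≠ 0 := div_ne_zero hx0 hπ0
        have h1 : v (x / π) ≤ 1 := by
          rw [map_div₀]; exact div_le_one_of_le₀ hle zero_le
        have h2 : v π ^ K ≤ v (x / π) := by
          rw [map_div₀, le_div_iff₀ (zero_lt_iff.mpr hvπ0), ← pow_succ]
          exact hK
        obtain ⟨k, hk⟩ := ih (x / π) hx' h1 h2
        refine ⟨k + 1, ?_⟩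
        rw [map_div₀, div_eq_iff hvπ0] at hk
        rw [hk, pow_succ]
      · exact ⟨0, by rw [pow_zero]; exact heq⟩
  intro x hx0
  rcases le_total (v x) 1 with hx1 | hx1
  · obtain ⟨K, hK⟩ := harch x hx0
    obtain ⟨k, hk⟩ := key K x hx0 hx1 hK
    exact ⟨k, by rw [zpow_natCast]; exact hk⟩
  · have hxi0 : x⁻¹ ≠ 0 := inv_ne_zero hx0
    have hxi1 : v x⁻¹ ≤ 1 := by
      rw [map_inv₀]; exact inv_le_one_of_one_le₀ hx1
    obtain ⟨K, hK⟩ := harch x⁻¹ hxi0
    obtain ⟨k, hk⟩ := key K x⁻¹ hxi0 hxi1 hK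
    refine ⟨-(k : ℤ), ?_⟩
    rw [zpow_neg, zpow_natCast, ← hk, map_inv₀, inv_inv]

end Disc

section Ext

variable {F₀ F₁ : Type*} [Field F₀] [Field F₁]

/-- (X) Chevalley: a valuation subring of a subfield extends to the big field. -/
theorem s18r_exists_extension (φ : F₀ →+* F₁) (V : ValuationSubring F₀) :
    ∃ W : ValuationSubring F₁, W.comap φ = V := by
  obtain ⟨W, hW, hloc⟩ := IsLocalRing.exists_factor_valuationRing (φ.comp V.subtype)
  refine ⟨W, ?_⟩
  ext x
  rw [ValuationSubring.mem_comap]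
  constructor
  · intro hx
    by_contra hxV
    have hx0 : x ≠ 0 := fun h => hxV (h ▸ V.zero_mem)
    have hinv : x⁻¹ ∈ V := (V.mem_or_inv_mem x).resolve_left hxV
    -- `x⁻¹` is not a unit of `V`
    have hnu : ¬ IsUnit (⟨x⁻¹, hinv⟩ : V) := by
      intro hu
      obtain ⟨u, hu⟩ := hu
      apply hxV
      have h1 : ((u⁻¹ : Vˣ) : V) * ⟨x⁻¹, hinv⟩ = 1 := by rw [← hu]; exact u.inv_mul
      have h2 : (((u⁻¹ : Vˣ) : V) : F₀) * x⁻¹ = 1 := congrArg Subtype.val h1
      have h3 : (((u⁻¹ : Vˣ) : V) : F₀) = x := by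
        field_simp at h2
        exact h2
      rw [← h3]
      exact ((u⁻¹ : Vˣ) : V).2
    apply hnu
    have hunit : IsUnit ((φ.comp V.subtype).codRestrict W.toSubring hW ⟨x⁻¹, hinv⟩) := by
      refine ⟨⟨⟨φ x⁻¹, hW ⟨x⁻¹, hinv⟩⟩, ⟨φ x, hx⟩, ?_, ?_⟩, rfl⟩
      · apply Subtype.ext
        show φ x⁻¹ * φ x = 1
        rw [← map_mul, inv_mul_cancel₀ hx0, map_one]
      · apply Subtype.ext
        show φ x * φ x⁻¹ = 1
        rw [← map_mul, mul_inv_cancel₀ hx0, map_one]
    exact hloc.map_nonunit _ hunit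
  · intro hx
    exact hW ⟨x, hx⟩

/-- the valuation of `W ∩ F₀` is equivalent to the restriction of the valuation of `W`. -/
theorem s18r_isEquiv_comap (φ : F₀ →+* F₁) (W : ValuationSubring F₁) :
    (W.valuation.comap φ).IsEquiv (W.comap φ).valuation :=
  Valuation.isEquiv_of_val_le_one fun x => by
    rw [Valuation.comap_apply, W.valuation_le_one_iff, (W.comap φ).valuation_le_one_iff]
    rfl

/-- (D) descent of discreteness to a subfield, with the ramification index `r`. -/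
theorem s18r_descend (φ : F₀ →+* F₁) (W : ValuationSubring F₁) (π : F₁) (hπ : S18IsDisc W π)
    (hne : W.comap φ ≠ ⊤) :
    ∃ (τ : F₀) (r : ℕ), 0 < r ∧ S18IsDisc (W.comap φ) τ ∧
      W.valuation (φ τ) = W.valuation π ^ r ∧
      ∀ x : F₀, x ≠ 0 → ∃ k : ℤ, W.valuation (φ x) = W.valuation π ^ ((r : ℤ) * k) ∧
        (W.comap φ).valuation x = (W.comap φ).valuation τ ^ k := by
  classical
  obtain ⟨hπ0, ⟨hπ1, hπu⟩, hπd⟩ := hπ
  set w := W.valuation with hw
  set V := W.comap φ with hV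
  have hequiv := s18r_isEquiv_comap φ W
  have hwπ0 : w π ≠ 0 := (Valuation.ne_zero_iff _).mpr hπ0
  have hwπpos : 0 < w π := zero_lt_iff.mpr hwπ0
  -- exponents
  have hex : ∀ x : F₀, x ≠ 0 → ∃ k : ℤ, w (φ x) = w π ^ k := fun x hx =>
    hπd (φ x) ((map_ne_zero φ).mpr hx)
  -- there is an element with positive exponent
  have hpos : ∃ r : ℕ, 0 < r ∧ ∃ x : F₀, x ≠ 0 ∧ w (φ x) = w π ^ r := by
    obtain ⟨x, hx⟩ : ∃ x : F₀, x ∉ V := by
      by_contra hcon
      push Not at hcon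
      exact hne (eq_top_iff.mpr fun x _ => hcon x)
    have hx0 : x ≠ 0 := by rintro rfl; exact hx V.zero_mem
    have hx1 : 1 < w (φ x) := by
      rw [← not_le, W.valuation_le_one_iff]; exact hx
    obtain ⟨k, hk⟩ := hex x hx0
    have hk0 : k < 0 := by
      by_contra hcon
      push Not at hcon
      have : w π ^ k ≤ w π ^ (0 : ℤ) :=
        (zpow_le_zpow_iff_right_of_lt_one₀ hwπpos hπ1).mpr hcon
      rw [zpow_zero, ← hk] at this
      exact absurd hx1 (not_lt.mpr this)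
    refine ⟨(-k).toNat, by omega, x⁻¹, inv_ne_zero hx0, ?_⟩
    rw [map_inv₀, map_inv₀, hk, ← zpow_neg, ← zpow_natCast]
    congr 1
    omega
  set r := Nat.find hpos with hr
  obtain ⟨hr0, τ, hτ0, hτ⟩ := Nat.find_spec hpos
  have hrmin : ∀ m : ℕ, 0 < m → (∃ x : F₀, x ≠ 0 ∧ w (φ x) = w π ^ m) → r ≤ m := fun m hm hx =>
    Nat.find_min' hpos ⟨hm, hx⟩
  -- every exponent is divisible by `r`
  have hdiv : ∀ x : F₀, x ≠ 0 → ∃ k : ℤ, w (φ x) = w π ^ ((r : ℤ) * k) := by
    intro x hx0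
    obtain ⟨n, hn⟩ := hex x hx0
    set q := n / (r : ℤ) with hq
    set s := n % (r : ℤ) with hs
    have hr0' : (0 : ℤ) < r := by exact_mod_cast hr0
    have hs0 : 0 ≤ s := Int.emod_nonneg _ hr0'.ne'
    have hsr : s < r := Int.emod_lt_of_pos _ hr0'
    have hn' : n = (r : ℤ) * q + s := (Int.mul_ediv_add_emod n r).symm
    rcases eq_or_lt_of_le hs0 with hs0' | hspos
    · exact ⟨q, by rw [hn, hn', ← hs0', add_zero]⟩
    · exfalso
      have hx' : x / τ ^ q ≠ 0 := div_ne_zero hx0 (zpow_ne_zero _ hτ0)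
      have hval : w (φ (x / τ ^ q)) = w π ^ (s.toNat : ℕ) := by
        rw [map_div₀, map_div₀, map_zpow₀, map_zpow₀, hn, hτ, ← zpow_natCast (w π) r,
          ← zpow_mul, ← zpow_sub₀ hwπ0, ← zpow_natCast]
        congr 1
        omega
      have := hrmin s.toNat (by omega) ⟨_, hx', hval⟩
      omega
  have hequiv_eq : ∀ x y : F₀, w (φ x) = w (φ y) ↔ V.valuation x = V.valuation y := fun x y =>
    hequiv.eq_iff
  have hVτ1 : V.valuation τ < 1 := by
    rw [← hequiv.lt_one_iff_lt_one, Valuation.comap_apply, hτ]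
    exact pow_lt_one₀ zero_le hπ1 hr0.ne'
  have hkey : ∀ x : F₀, x ≠ 0 → ∃ k : ℤ, w (φ x) = w π ^ ((r : ℤ) * k) ∧
      V.valuation x = V.valuation τ ^ k := by
    intro x hx0
    obtain ⟨k, hk⟩ := hdiv x hx0
    refine ⟨k, hk, ?_⟩
    have h1 : w (φ x) = w (φ (τ ^ k)) := by
      rw [map_zpow₀, map_zpow₀, hτ, hk, ← zpow_natCast (w π) r, ← zpow_mul]
    have := (hequiv_eq x (τ ^ k)).mp h1
    rwa [map_zpow₀] at this
  refine ⟨τ, r, hr0, ⟨hτ0, ⟨hVτ1, ?_⟩, fun x hx0 => ?_⟩, hτ, hkey⟩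
  · intro x hx1
    rcases eq_or_ne x 0 with rfl | hx0
    · rw [map_zero]; exact zero_le
    obtain ⟨k, hk, hk'⟩ := hkey x hx0
    have hwx1 : w (φ x) < 1 := by
      have := hequiv.lt_one_iff_lt_one.mpr hx1
      rwa [Valuation.comap_apply] at this
    have hk1 : 0 < (r : ℤ) * k := by
      have : w π ^ ((r : ℤ) * k) < w π ^ (0 : ℤ) := by rw [zpow_zero, ← hk]; exact hwx1
      exact (zpow_lt_zpow_iff_right_of_lt_one₀ hwπpos hπ1).mp this
    have hk1' : 1 ≤ k := by
      have hr0' : (0 : ℤ) < r := by exact_mod_cast hr0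
      have := (mul_pos_iff_of_pos_left hr0').mp hk1
      omega
    have hVτ0 : V.valuation τ ≠ 0 := (Valuation.ne_zero_iff _).mpr hτ0
    rw [hk']
    calc V.valuation τ ^ k ≤ V.valuation τ ^ (1 : ℤ) :=
          (zpow_le_zpow_iff_right_of_lt_one₀ (zero_lt_iff.mpr hVτ0) hVτ1).mpr hk1'
      _ = V.valuation τ := zpow_one _
  · obtain ⟨k, -, hk'⟩ := hkey x hx0
    exact ⟨k, hk'⟩

end Ext

section Ext2

variable {F₀ F₁ : Type*} [Field F₀] [Field F₁]

/-- (D) in the form used by the assembly: the value of `x ∈ F₀` downstairs. -/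
theorem s18r_descend_val (φ : F₀ →+* F₁) (W : ValuationSubring F₁) (π : F₁) (hπ : S18IsDisc W π)
    (x : F₀) (e : ℕ) (hx1 : W.valuation (φ x) < 1) (hx : W.valuation (φ x) = W.valuation π ^ e) :
    ∃ τ : F₀, S18IsUnif (W.comap φ) τ ∧ ∃ e' : ℕ, e' ∣ e ∧
      (W.comap φ).valuation x = (W.comap φ).valuation τ ^ e' := by
  set w := W.valuation with hw
  have hπ0 : π ≠ 0 := hπ.1
  have hπ1 : w π < 1 := hπ.2.1.1
  have hwπ0 : w π ≠ 0 := (Valuation.ne_zero_iff _).mpr hπ0
  have hwπpos : 0 < w π := zero_lt_iff.mpr hwπ0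
  have hx0 : x ≠ 0 := by
    rintro rfl
    rw [map_zero, map_zero] at hx
    exact pow_ne_zero e hwπ0 hx.symm
  have hne : W.comap φ ≠ ⊤ := by
    intro htop
    have hmem : x⁻¹ ∈ W.comap φ := by rw [htop]; exact ValuationSubring.mem_top _
    have h1 : w (φ x⁻¹) ≤ 1 := (W.valuation_le_one_iff _).mpr hmem
    rw [map_inv₀, map_inv₀] at h1
    have h2 : w (φ x) ≠ 0 := (Valuation.ne_zero_iff _).mpr ((map_ne_zero φ).mpr hx0)
    have h3 : 1 ≤ w (φ x) := by rwa [inv_le_one₀ (zero_lt_iff.mpr h2)] at h1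
    exact absurd hx1 (not_lt.mpr h3)
  obtain ⟨τ, r, hr0, hτ, hτr, hkey⟩ := s18r_descend φ W π hπ hne
  obtain ⟨k, hk, hk'⟩ := hkey x hx0
  have hrk : (r : ℤ) * k = (e : ℤ) := by
    have : w π ^ ((r : ℤ) * k) = w π ^ ((e : ℕ) : ℤ) := by rw [← hk, hx, zpow_natCast]
    exact zpow_right_injective₀ hwπpos hπ1.ne this
  have hr0' : (0 : ℤ) < r := by exact_mod_cast hr0
  have hk0 : 0 ≤ k := by
    by_contra hcon
    push Not at hcon
    have : (r : ℤ) * k < 0 := mul_neg_of_pos_of_neg hr0' hcon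
    omega
  refine ⟨τ, hτ.2.1, k.toNat, ?_, ?_⟩
  · have h1 : (k.toNat : ℤ) = k := Int.toNat_of_nonneg hk0
    have : ((k.toNat : ℕ) : ℤ) ∣ (e : ℤ) := by
      rw [h1, ← hrk]; exact dvd_mul_left _ _
    exact_mod_cast this
  · rw [hk', ← zpow_natCast, Int.toNat_of_nonneg hk0]

/-- elements algebraic over a subfield on which the valuation is discrete are bounded below by
powers of the uniformiser of the subfield. -/
theorem s18r_arch_of_disc (φ : F₀ →+* F₁) (W : ValuationSubring F₁) (τ : F₀)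
    (hτ : S18IsDisc (W.comap φ) τ) (x : F₁) (hx : x ≠ 0)
    (halg : ∃ p : F₀[X], p ≠ 0 ∧ p.eval₂ φ x = 0) :
    ∃ K : ℕ, W.valuation (φ τ) ^ K ≤ W.valuation x := by
  set w := W.valuation with hw
  set V := W.comap φ with hV
  have hequiv := s18r_isEquiv_comap φ W
  by_cases hvx : w x ≤ 1
  · obtain ⟨p, hp0, hpx⟩ := halg
    -- integral coefficients
    obtain ⟨b, hb, hbp⟩ := IsLocalization.integerNormalization_spec (nonZeroDivisors ↥V) p
    set p' := IsLocalization.integerNormalization (nonZeroDivisors ↥V) p with hp'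
    have hp'0 : p' ≠ 0 := (IsFractionRing.integerNormalization_eq_zero_iff).not.mpr hp0
    set ψ : ↥V →+* F₁ := φ.comp V.subtype with hψ
    have hψ1 : ∀ c : ↥V, w (ψ c) ≤ 1 := fun c => (W.valuation_le_one_iff _).mpr c.2
    have hp'x : p'.eval₂ ψ x = 0 := by
      have h1 : (p'.map (algebraMap ↥V F₀)).eval₂ φ x = 0 := by
        rw [hbp, Algebra.smul_def, eval₂_mul, hpx, mul_zero]
      rwa [eval₂_map] at h1
    obtain ⟨p1, hp1, hndvd⟩ := exists_eq_pow_rootMultiplicity_mul_and_not_dvd p' hp'0 0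
    simp only [map_zero, sub_zero] at hp1 hndvd
    have hc0 : p1.coeff 0 ≠ 0 := fun h => hndvd (X_dvd_iff.mpr h)
    have hp1x : p1.eval₂ ψ x = 0 := by
      rw [hp1, eval₂_mul, eval₂_pow, eval₂_X] at hp'x
      exact (mul_eq_zero.mp hp'x).resolve_left (pow_ne_zero _ hx)
    have hd := divX_mul_X_add p1
    have h0 : (divX p1).eval₂ ψ x * x + ψ (p1.coeff 0) = 0 := by
      rw [← hp1x]
      conv_rhs => rw [← hd]
      simp
    -- the constant coefficient
    have hc0' : ((p1.coeff 0 : ↥V) : F₀) ≠ 0 := fun h => hc0 (Subtype.ext h)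
    obtain ⟨k, hk⟩ := hτ.2.2 _ hc0'
    have hVτ1 : V.valuation τ < 1 := hτ.2.1.1
    have hVτ0 : V.valuation τ ≠ 0 := (Valuation.ne_zero_iff _).mpr hτ.1
    have hk0 : 0 ≤ k := by
      by_contra hcon
      push Not at hcon
      have h1 : V.valuation ((p1.coeff 0 : ↥V) : F₀) ≤ 1 :=
        (V.valuation_le_one_iff _).mpr (p1.coeff 0).2
      rw [hk] at h1
      have h2 : V.valuation τ ^ k ≤ V.valuation τ ^ (0 : ℤ) := by rwa [zpow_zero]
      have := (zpow_le_zpow_iff_right_of_lt_one₀ (zero_lt_iff.mpr hVτ0) hVτ1).mp h2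
      omega
    refine ⟨k.toNat, ?_⟩
    have h1 : V.valuation ((p1.coeff 0 : ↥V) : F₀) = V.valuation (τ ^ k.toNat) := by
      rw [hk, map_pow, ← zpow_natCast, Int.toNat_of_nonneg hk0]
    have h2 := hequiv.eq_iff.mpr h1
    rw [Valuation.comap_apply, Valuation.comap_apply, map_pow, map_pow] at h2
    rw [← h2]
    have h3 : ψ (p1.coeff 0) = -((divX p1).eval₂ ψ x * x) := eq_neg_of_add_eq_zero_right h0
    show w (ψ (p1.coeff 0)) ≤ w x
    rw [h3, Valuation.map_neg, map_mul]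
    calc w ((divX p1).eval₂ ψ x) * w x ≤ 1 * w x := by
          gcongr; exact s18ta_val_eval₂_le_one w ψ hψ1 x hvx _
      _ = w x := one_mul _
  · exact ⟨0, by rw [pow_zero]; exact (not_le.mp hvx).le⟩

end Ext2

section Kummer

variable {K F₀ F₁ : Type*} [Field K] [CharZero K] [Field F₀] [Field F₁]
  [Algebra F₀ F₁] [Algebra K F₁]

/-- (U) a Kummer extension `F₁ = F₀(y)`, `y ^ p = f`, is unramified (in residue characteristic
zero) at every valuation ring `W` whose restriction to `F₀` is discrete with `p ∣ ord f`. -/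
theorem s18r_kummer_unram (W : ValuationSubring F₁) (hK : ∀ c : K, algebraMap K F₁ c ∈ W)
    (p : ℕ) (hp : p ≠ 0) (f : F₀) (hf : f ≠ 0) (y : F₁) (hy : y ^ p = algebraMap F₀ F₁ f)
    (hspan : ∀ x : F₁, ∃ q : F₀[X], x = aeval y q)
    (π : F₀) (hπ : S18IsDisc (W.comap (algebraMap F₀ F₁)) π)
    (k : ℤ) (hk : W.valuation (algebraMap F₀ F₁ f) =
      W.valuation (algebraMap F₀ F₁ π) ^ ((p : ℤ) * k)) :
    S18IsDisc W (algebraMap F₀ F₁ π) := by
  set φ := algebraMap F₀ F₁ with hφ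
  set w := W.valuation with hw
  set V := W.comap φ with hV
  have hequiv := s18r_isEquiv_comap φ W
  obtain ⟨hπ0, ⟨hπ1, hπu⟩, hπd⟩ := hπ
  have hφπ0 : φ π ≠ 0 := (map_ne_zero φ).mpr hπ0
  have hwπ0 : w (φ π) ≠ 0 := (Valuation.ne_zero_iff _).mpr hφπ0
  have hwπ1 : w (φ π) < 1 := by
    have := hequiv.lt_one_iff_lt_one.mpr hπ1
    rwa [Valuation.comap_apply] at this
  -- the modified generator
  set z : F₁ := y * φ (π ^ (1 - k)) with hz
  set a : F₀ := f * π ^ ((p : ℤ) * (1 - k)) with ha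
  have ha0 : a ≠ 0 := mul_ne_zero hf (zpow_ne_zero _ hπ0)
  have hzw : z ^ p = φ a := by
    rw [hz, mul_pow, hy, ← map_pow, ← map_mul, ha, ← zpow_natCast (π ^ (1 - k)) p, ← zpow_mul,
      mul_comm (1 - k) (p : ℤ)]
  have hwa : w (φ a) = w (φ π) ^ p := by
    rw [ha, map_mul, map_mul, hk, map_zpow₀, map_zpow₀, ← zpow_add₀ hwπ0, ← zpow_natCast]
    congr 1
    ring
  have hwz : w z = w (φ π) := by
    have : w z ^ p = w (φ π) ^ p := by rw [← map_pow, hzw, hwa]
    exact pow_left_injective hp this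
  have hz1 : w z < 1 := hwz ▸ hwπ1
  -- spanning
  have hspan' : ∀ x : F₁, ∃ q : F₀[X], x = aeval z q := by
    intro x
    obtain ⟨q, rfl⟩ := hspan x
    refine ⟨q.comp (C (π ^ (k - 1)) * X), ?_⟩
    rw [aeval_comp, map_mul, aeval_C, aeval_X]
    congr 1
    rw [hz, ← hφ, mul_comm, mul_assoc, ← map_mul, ← zpow_add₀ hπ0]
    have : 1 - k + (k - 1) = 0 := by ring
    rw [this, zpow_zero, map_one, mul_one]
  -- archimedean
  have hyint : IsIntegral F₀ y := by
    refine ⟨X ^ p - C f, monic_X_pow_sub_C f hp, ?_⟩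
    rw [eval₂_sub, eval₂_pow, eval₂_X, eval₂_C, hy, sub_self]
  have harch : ∀ x : F₁, x ≠ 0 → ∃ K : ℕ, w z ^ K ≤ w x := by
    intro x hx
    obtain ⟨q, hq⟩ := hspan x
    have hxint : IsIntegral F₀ x :=
      IsIntegral.of_mem_of_fg _ hyint.fg_adjoin_singleton x (by
        rw [Algebra.adjoin_singleton_eq_range_aeval]; exact ⟨q, hq.symm⟩)
    obtain ⟨P, hP0, hPx⟩ := hxint.isAlgebraic
    rw [hwz]
    exact s18r_arch_of_disc φ W π ⟨hπ0, ⟨hπ1, hπu⟩, hπd⟩ x hx ⟨P, hP0, hPx⟩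
  have hunif := s18ta_unif_core (L := K) W hK z hz1 a ha0 p hp hzw hspan' harch π p dvd_rfl
    hwπ1
    (fun x hx => by
      have h1 : V.valuation x < 1 := hequiv.lt_one_iff_lt_one.mp hx
      exact (hequiv x π).mpr (hπu x h1))
    hwa
  rw [hwz] at hunif harch
  exact ⟨hφπ0, ⟨hwπ1, hunif⟩, s18r_disc_of_arch w (φ π) hφπ0 hunif harch⟩

end Kummer

end Fermat.Agent.S18
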