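import Mathlib
import Fermat.Prelude.Def_AlgebraicCurve_DivisorClassGroup
import Fermat.Agent.S18.RH.Val
import Fermat.Agent.S18.T.Unram

/-!
# S18, package RH : the abstract core

Fields: `E` (number field), `Ē` (algebraic closure), `F''` (function field over `E`),
`F̄ ⊆ F̄''` function fields over `Ē`, `F̄'' = F̄(ȳ)`, `ȳ ^ p = f̄`, `φ : F'' → F̄''` compatible with
the constants.  Hypotheses: every weak place of `F̄ / Ē` is a Prelude `Place` (`hW`, leaf (W)),
`p ∣ ord_P f̄` for all places `P` (`hdiv`).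

* `s18r_place_disc` : a Prelude place is discrete, `Place.ord` = exponent of the uniformiser;
* `s18r_exists_root_lt_one`, `s18r_val_aeval_eq_one`, `s18r_separable_root` : polynomials over an
  algebraically closed constant field;
* (CW) `s18r_core_place` : a weak place `V` of `F'' / E` extends to `W` on `F̄''`, which is
  unramified over the place `P = W ∩ F̄`;
* (CT) `s18r_core_tame`  : `S18TameAbove` from a divisibility statement on `ord_P (t̄ - s̄)`;
* (CU) `s18r_core_unram` : `S18UnramAbove` above a horizontal prime whose roots are unramified.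
-/

set_option autoImplicit false
set_option linter.unusedSectionVars false

noncomputable section

namespace Fermat.Agent.S18

open Polynomial IntermediateField AlgebraicCurve

section PlaceLink

variable {K F : Type*} [Field K] [Field F] [Algebra K F]

/-- a Prelude place is discrete, and `Place.ord` is the exponent of the uniformiser. -/
theorem s18r_place_disc (P : Place K F) :
    ∃ π : F, S18IsDisc P.toValuationSubring π ∧ P.ord π = 1 ∧
      ∀ x : F, x ≠ 0 → P.toValuationSubring.valuation x =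
        P.toValuationSubring.valuation π ^ (P.ord x) := by
  set V := P.toValuationSubring with hV
  obtain ⟨π, hπ⟩ := IsDiscreteValuationRing.exists_irreducible V
  have hπ0 : (π : F) ≠ 0 := by
    simpa [ne_eq, ZeroMemClass.coe_eq_zero] using hπ.ne_zero
  have hvπ1 : V.valuation (π : F) < 1 := by
    rw [← V.valuation_lt_one_iff]
    exact (IsLocalRing.mem_maximalIdeal _).mpr hπ.not_isUnit
  have hvπ0 : V.valuation (π : F) ≠ 0 := (Valuation.ne_zero_iff _).mpr hπ0
  have hord : ∀ x : F, x ≠ 0 → V.valuation x = V.valuation (π : F) ^ (P.ord x) := by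
    intro x hx
    obtain ⟨u, hu⟩ := P.exists_unit_mul_zpow hx hπ
    conv_lhs => rw [hu]
    rw [map_mul, map_zpow₀, V.valuation_unit, one_mul]
  refine ⟨π, ⟨hπ0, ⟨hvπ1, fun x hx1 => ?_⟩, fun x hx => ⟨_, hord x hx⟩⟩,
    P.ord_coe_irreducible hπ, hord⟩
  rcases eq_or_ne x 0 with rfl | hx0
  · rw [map_zero]; exact zero_le
  rw [hord x hx0] at hx1 ⊢
  have h1 : V.valuation (π : F) ^ P.ord x < V.valuation (π : F) ^ (0 : ℤ) := by rwa [zpow_zero]
  have h2 := (zpow_lt_zpow_iff_right_of_lt_one₀ (zero_lt_iff.mpr hvπ0) hvπ1).mp h1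
  calc V.valuation (π : F) ^ P.ord x ≤ V.valuation (π : F) ^ (1 : ℤ) :=
        (zpow_le_zpow_iff_right_of_lt_one₀ (zero_lt_iff.mpr hvπ0) hvπ1).mpr (by omega)
    _ = _ := zpow_one _

/-- `0 < ord x ↔ v x < 1` -/
theorem s18r_ord_pos_iff (P : Place K F) (x : F) (hx : x ≠ 0) :
    0 < P.ord x ↔ P.toValuationSubring.valuation x < 1 := by
  obtain ⟨π, ⟨hπ0, ⟨hπ1, -⟩, -⟩, -, hord⟩ := s18r_place_disc P
  have hvπ0 : P.toValuationSubring.valuation π ≠ 0 := (Valuation.ne_zero_iff _).mpr hπ0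
  rw [hord x hx]
  conv_rhs => rw [← zpow_zero (P.toValuationSubring.valuation π)]
  exact (zpow_lt_zpow_iff_right_of_lt_one₀ (zero_lt_iff.mpr hvπ0) hπ1).symm

end PlaceLink

/-- valuation rings are integrally closed (explicit form). -/
theorem s18r_mem_of_monic_root {R F₁ : Type*} [CommRing R] [Field F₁] (W : ValuationSubring F₁)
    (ψ : R →+* F₁) (hψ : ∀ c : R, ψ c ∈ W) (x : F₁) (P : R[X]) (hP : P.Monic)
    (hx : P.eval₂ ψ x = 0) : x ∈ W := by
  rw [← W.valuation_le_one_iff]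
  refine s18to_val_le_one_of_root W.valuation x (P.map ψ) (fun i => ?_) ?_ ?_
  · rw [coeff_map]; exact (W.valuation_le_one_iff _).mpr (hψ _)
  · rw [(hP.map ψ).leadingCoeff, map_one]
  · rw [eval_map]; exact hx

section Roots

variable {K F : Type*} [Field K] [Field F] [Algebra K F]
  {Γ : Type*} [LinearOrderedCommGroupWithZero Γ]

/-- over an algebraically closed constant field: if `v (Q(t)) < 1` then `t` is `v`-close to a root
of `Q`. -/
theorem s18r_exists_root_lt_one [IsAlgClosed K] (v : Valuation F Γ)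
    (hK : ∀ c : K, v (algebraMap K F c) ≤ 1) (t : F) :
    ∀ (n : ℕ) (Q : K[X]), Q.natDegree = n → Q ≠ 0 → v (aeval t Q) < 1 →
      ∃ a : K, Q.IsRoot a ∧ v (t - algebraMap K F a) < 1 := by
  intro n
  induction n with
  | zero =>
    intro Q hdeg hQ0 hQ
    exfalso
    rw [natDegree_eq_zero] at hdeg
    obtain ⟨c, rfl⟩ := hdeg
    have hc : c ≠ 0 := fun h => hQ0 (by rw [h, map_zero])
    rw [aeval_C, s18ta_val_algebraMap v hK c hc] at hQ
    exact lt_irrefl _ hQ
  | succ n ih =>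
    intro Q hdeg hQ0 hQ
    have hdeg' : Q.degree ≠ 0 := by
      rw [degree_eq_natDegree hQ0, hdeg]
      exact_mod_cast Nat.succ_ne_zero n
    obtain ⟨a, ha⟩ := IsAlgClosed.exists_root Q hdeg'
    obtain ⟨Q', hQ'⟩ := dvd_iff_isRoot.mpr ha
    by_cases hta : v (t - algebraMap K F a) < 1
    · exact ⟨a, ha, hta⟩
    · have hQ'0 : Q' ≠ 0 := fun h => hQ0 (by rw [hQ', h, mul_zero])
      have hdeg'' : Q'.natDegree = n := by
        have := congrArg natDegree hQ'
        rw [natDegree_mul (X_sub_C_ne_zero a) hQ'0, natDegree_X_sub_C, hdeg] at this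
        omega
      have hval : v (aeval t Q') < 1 := by
        by_contra hcon
        have h1 : (1 : Γ) ≤ v (t - algebraMap K F a) * v (aeval t Q') :=
          one_le_mul_of_one_le_of_one_le (not_lt.mp hta) (not_lt.mp hcon)
        rw [hQ', map_mul, map_mul, map_sub, aeval_X, aeval_C] at hQ
        exact absurd hQ (not_lt.mpr h1)
      obtain ⟨b, hb, hbt⟩ := ih Q' hdeg'' hQ'0 hval
      refine ⟨b, ?_, hbt⟩
      rw [hQ']
      exact (dvd_iff_isRoot.mpr hb).mul_left _ |> dvd_iff_isRoot.mp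

/-- if `t` is `v`-close to `a` and `h(a) ≠ 0` then `h(t)` is a `v`-unit. -/
theorem s18r_val_aeval_eq_one (v : Valuation F Γ)
    (hK : ∀ c : K, v (algebraMap K F c) ≤ 1) (t : F) (a : K)
    (hta : v (t - algebraMap K F a) < 1) (h : K[X]) (ha : h.eval a ≠ 0) :
    v (aeval t h) = 1 := by
  have ht1 : v t ≤ 1 := by
    have : t = (t - algebraMap K F a) + algebraMap K F a := by ring
    rw [this]
    exact (v.map_add _ _).trans (max_le hta.le (hK a))
  have hdecomp : h = (X - C a) * (h /ₘ (X - C a)) + C (h.eval a) := by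
    have := modByMonic_add_div h (X - C a)
    rw [modByMonic_X_sub_C_eq_C_eval] at this
    rw [add_comm]; exact this.symm
  have h1 : aeval t h = (t - algebraMap K F a) * aeval t (h /ₘ (X - C a)) +
      algebraMap K F (h.eval a) := by
    conv_lhs => rw [hdecomp]
    simp
  rw [h1, v.map_add_eq_of_lt_right]
  · exact s18ta_val_algebraMap v hK _ ha
  · rw [s18ta_val_algebraMap v hK _ ha, map_mul]
    calc v (t - algebraMap K F a) * v (aeval t (h /ₘ (X - C a)))
        ≤ v (t - algebraMap K F a) * 1 := by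
          gcongr; exact s18ta_val_aeval_le_one v hK t ht1 _
      _ < 1 := by rwa [mul_one]

/-- a separable polynomial is `(X - a)` times a polynomial not vanishing at `a`. -/
theorem s18r_separable_root (Q : K[X]) (hQ : Q.Separable) (a : K) (ha : Q.IsRoot a) :
    ∃ h : K[X], Q = (X - C a) * h ∧ h.eval a ≠ 0 := by
  obtain ⟨h, hh⟩ := dvd_iff_isRoot.mpr ha
  refine ⟨h, hh, fun h0 => ?_⟩
  have h1 : (derivative Q).eval a = h.eval a := by
    rw [hh, derivative_mul, derivative_sub, derivative_X, derivative_C, sub_zero, one_mul,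
      eval_add, eval_mul, eval_sub, eval_X, eval_C, sub_self, zero_mul, add_zero]
  obtain ⟨α, β, hαβ⟩ := hQ
  have h2 := congrArg (eval a) hαβ
  rw [eval_add, eval_mul, eval_mul, ha.eq_zero, h1, h0, mul_zero, mul_zero, add_zero,
    eval_one] at h2
  exact zero_ne_one h2

end Roots

section Core

variable {E : Type*} [Field E]
variable {Eb : Type*} [Field Eb] [CharZero Eb] [Algebra E Eb] [Algebra.IsAlgebraic E Eb]
variable {F2 : Type*} [Field F2] [Algebra E F2]
variable {Fb : Type*} [Field Fb] [Algebra Eb Fb]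
variable {Fb2 : Type*} [Field Fb2] [Algebra Eb Fb2] [Algebra Fb Fb2] [IsScalarTower Eb Fb Fb2]

/-- (CW) analysis of a weak place `V` of `F'' / E`: extend it to `W` on `F̄''`; `W ∩ F̄` is a
place `P` of `F̄ / Ē`, and `W` is unramified over it. -/
theorem s18r_core_place (φ : F2 →+* Fb2)
    (hφ : ∀ c : E, φ (algebraMap E F2 c) = algebraMap Eb Fb2 (algebraMap E Eb c))
    (hW : ∀ W₁ : ValuationSubring Fb, S18IsPlace Eb W₁ →
      ∃ P : Place Eb Fb, P.toValuationSubring = W₁)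
    (p : ℕ) (hp : p ≠ 0) (fb : Fb) (hfb : fb ≠ 0) (yb : Fb2)
    (hyb : yb ^ p = algebraMap Fb Fb2 fb)
    (hspan : ∀ x : Fb2, ∃ q : Fb[X], x = aeval yb q)
    (hdiv : ∀ P : Place Eb Fb, (p : ℤ) ∣ P.ord fb)
    (V : ValuationSubring F2) (hV : S18IsPlace E V) :
    ∃ (W : ValuationSubring Fb2) (P : Place Eb Fb) (π₁ : Fb), W.comap φ = V ∧
      (∀ a : Eb, algebraMap Eb Fb2 a ∈ W) ∧
      P.toValuationSubring = W.comap (algebraMap Fb Fb2) ∧
      S18IsDisc W (algebraMap Fb Fb2 π₁) ∧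
      ∀ x : Fb, x ≠ 0 →
        W.valuation (algebraMap Fb Fb2 x) = W.valuation (algebraMap Fb Fb2 π₁) ^ (P.ord x) := by
  obtain ⟨hVtop, hVE⟩ := hV
  obtain ⟨W, hWV⟩ := s18r_exists_extension φ V
  set ι := algebraMap Fb Fb2 with hι
  -- `E ⊆ W`
  have hWE : ∀ c : E, algebraMap Eb Fb2 (algebraMap E Eb c) ∈ W := by
    intro c
    rw [← hφ]
    have : algebraMap E F2 c ∈ W.comap φ := by rw [hWV]; exact hVE c
    exact this
  -- `Ē ⊆ W`
  have hWEb : ∀ a : Eb, algebraMap Eb Fb2 a ∈ W := by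
    intro a
    obtain ⟨P, hPm, hPa⟩ := (Algebra.IsAlgebraic.isAlgebraic (R := E) a).isIntegral
    refine s18r_mem_of_monic_root W ((algebraMap Eb Fb2).comp (algebraMap E Eb)) hWE _ P hPm ?_
    rw [← hom_eval₂, hPa, map_zero]
  -- `W ≠ ⊤`
  have hWtop : W ≠ ⊤ := by
    intro h
    apply hVtop
    rw [← hWV, h]
    rfl
  -- `W₁ = W ∩ F̄`
  set W₁ : ValuationSubring Fb := W.comap ι with hW₁
  have hyint : IsIntegral Fb yb := by
    refine ⟨X ^ p - C fb, monic_X_pow_sub_C fb hp, ?_⟩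
    rw [eval₂_sub, eval₂_pow, eval₂_X, eval₂_C, hyb, sub_self]
  have hint : ∀ x : Fb2, IsIntegral Fb x := by
    intro x
    obtain ⟨q, hq⟩ := hspan x
    exact IsIntegral.of_mem_of_fg _ hyint.fg_adjoin_singleton x (by
      rw [Algebra.adjoin_singleton_eq_range_aeval]; exact ⟨q, hq.symm⟩)
  have hW₁place : S18IsPlace Eb W₁ := by
    refine ⟨fun htop => hWtop (eq_top_iff.mpr fun x _ => ?_), fun c => ?_⟩
    · obtain ⟨P, hPm, hPx⟩ := hint x
      refine s18r_mem_of_monic_root W ι (fun c => ?_) x P hPm hPx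
      have : c ∈ W₁ := by rw [htop]; exact ValuationSubring.mem_top _
      exact this
    · show ι (algebraMap Eb Fb c) ∈ W
      rw [hι, ← IsScalarTower.algebraMap_apply]
      exact hWEb c
  obtain ⟨P, hP⟩ := hW W₁ hW₁place
  obtain ⟨π₁, hπ₁disc, -, hπ₁ord⟩ := s18r_place_disc P
  rw [hP] at hπ₁disc hπ₁ord
  have hequiv := s18r_isEquiv_comap ι W
  -- transfer of the `ord` formula to `W`
  have hπ₁0 : π₁ ≠ 0 := hπ₁disc.1
  have hordW : ∀ x : Fb, x ≠ 0 →
      W.valuation (ι x) = W.valuation (ι π₁) ^ (P.ord x) := by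
    intro x hx
    have h1 : W₁.valuation x = W₁.valuation (π₁ ^ P.ord x) := by
      rw [map_zpow₀]; exact hπ₁ord x hx
    have h2 := hequiv.eq_iff.mpr h1
    rwa [Valuation.comap_apply, Valuation.comap_apply, map_zpow₀, map_zpow₀] at h2
  obtain ⟨k, hk⟩ := hdiv P
  have hdisc : S18IsDisc W (ι π₁) :=
    s18r_kummer_unram (K := Eb) W hWEb p hp fb hfb yb hyb hspan π₁ hπ₁disc k (by
      rw [hordW fb hfb, hk])
  exact ⟨W, P, π₁, hWV, hWEb, hP, hdisc, hordW⟩

end Core

section Core2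

variable {A₀ : Type*} [CommRing A₀] [IsDomain A₀] [IsDiscreteValuationRing A₀] [CharZero A₀]
variable {E : Type*} [Field E] [Algebra A₀ E] [IsFractionRing A₀ E]
variable {Eb : Type*} [Field Eb] [IsAlgClosed Eb] [CharZero Eb] [Algebra E Eb]
  [Algebra.IsAlgebraic E Eb]
variable {F2 : Type*} [Field F2] [Algebra A₀ F2] [Algebra E F2] [IsScalarTower A₀ E F2]
variable {Fb : Type*} [Field Fb] [Algebra Eb Fb]
variable {Fb2 : Type*} [Field Fb2] [Algebra Eb Fb2] [Algebra Fb Fb2] [IsScalarTower Eb Fb Fb2]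

theorem s18r_core_const (φ : F2 →+* Fb2)
    (hφ : ∀ c : E, φ (algebraMap E F2 c) = algebraMap Eb Fb2 (algebraMap E Eb c)) (s : A₀) :
    φ (algebraMap A₀ F2 s) =
      algebraMap Fb Fb2 (algebraMap Eb Fb (algebraMap E Eb (algebraMap A₀ E s))) := by
  rw [IsScalarTower.algebraMap_apply A₀ E F2, hφ, ← IsScalarTower.algebraMap_apply Eb Fb Fb2]

/-- (CT) tameness at a special point. -/
theorem s18r_core_tame (φ : F2 →+* Fb2)
    (hφ : ∀ c : E, φ (algebraMap E F2 c) = algebraMap Eb Fb2 (algebraMap E Eb c))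
    (hW : ∀ W₁ : ValuationSubring Fb, S18IsPlace Eb W₁ →
      ∃ P : Place Eb Fb, P.toValuationSubring = W₁)
    (p : ℕ) (hp : p ≠ 0) (fb : Fb) (hfb : fb ≠ 0) (yb : Fb2)
    (hyb : yb ^ p = algebraMap Fb Fb2 fb)
    (hspan : ∀ x : Fb2, ∃ q : Fb[X], x = aeval yb q)
    (hdiv : ∀ P : Place Eb Fb, (p : ℤ) ∣ P.ord fb)
    (t2 : F2) (tb : Fb) (ht : φ t2 = algebraMap Fb Fb2 tb)
    (hne : ∀ a : Eb, tb - algebraMap Eb Fb a ≠ 0)
    (s : A₀) (wt : ℕ)
    (hR : ∀ P : Place Eb Fb,
      0 < P.ord (tb - algebraMap Eb Fb (algebraMap E Eb (algebraMap A₀ E s))) →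
      P.ord (tb - algebraMap Eb Fb (algebraMap E Eb (algebraMap A₀ E s))) ∣ (wt : ℤ)) :
    S18TameAbove A₀ E t2 s wt := by
  intro V hV hlt
  obtain ⟨W, P, π₁, hWV, hWEb, hP, hdisc, hordW⟩ :=
    s18r_core_place φ hφ hW p hp fb hfb yb hyb hspan hdiv V hV
  subst hWV
  set ι := algebraMap Fb Fb2 with hι
  set w := W.valuation with hw
  have hequiv := s18r_isEquiv_comap φ W
  set sb : Eb := algebraMap E Eb (algebraMap A₀ E s) with hsb
  set xb : Fb := tb - algebraMap Eb Fb sb with hxb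
  have hxb0 : xb ≠ 0 := hne sb
  have hφx : φ (t2 - algebraMap A₀ F2 s) = ι xb := by
    rw [map_sub, ht, s18r_core_const (Fb := Fb) φ hφ s, hxb, map_sub]
  have hx1 : w (φ (t2 - algebraMap A₀ F2 s)) < 1 := by
    have := hequiv.lt_one_iff_lt_one.mpr hlt
    rwa [Valuation.comap_apply] at this
  have hπ0 : ι π₁ ≠ 0 := hdisc.1
  have hwπ0 : w (ι π₁) ≠ 0 := (Valuation.ne_zero_iff _).mpr hπ0
  have hwπ1 : w (ι π₁) < 1 := hdisc.2.1.1
  have hordpos : 0 < P.ord xb := by
    have h1 : w (ι π₁) ^ P.ord xb < w (ι π₁) ^ (0 : ℤ) := by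
      rw [zpow_zero, ← hordW xb hxb0, ← hφx]; exact hx1
    exact (zpow_lt_zpow_iff_right_of_lt_one₀ (zero_lt_iff.mpr hwπ0) hwπ1).mp h1
  have hdvd := hR P hordpos
  set e := (P.ord xb).toNat with he
  have hecast : (e : ℤ) = P.ord xb := Int.toNat_of_nonneg hordpos.le
  have hx : w (φ (t2 - algebraMap A₀ F2 s)) = w (ι π₁) ^ e := by
    rw [hφx, hordW xb hxb0, ← hecast, zpow_natCast]
  obtain ⟨τ, hτ, e', he', hval⟩ := s18r_descend_val φ W (ι π₁) hdisc _ e hx1 hx
  refine ⟨τ, hτ, e', ?_, hval⟩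
  have : (e : ℤ) ∣ (wt : ℤ) := by rw [hecast]; exact hdvd
  exact he'.trans (by exact_mod_cast this)

/-- (CU) unramifiedness above a horizontal prime all of whose roots are unramified points. -/
theorem s18r_core_unram (φ : F2 →+* Fb2)
    (hφ : ∀ c : E, φ (algebraMap E F2 c) = algebraMap Eb Fb2 (algebraMap E Eb c))
    (hW : ∀ W₁ : ValuationSubring Fb, S18IsPlace Eb W₁ →
      ∃ P : Place Eb Fb, P.toValuationSubring = W₁)
    (p : ℕ) (hp : p ≠ 0) (fb : Fb) (hfb : fb ≠ 0) (yb : Fb2)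
    (hyb : yb ^ p = algebraMap Fb Fb2 fb)
    (hspan : ∀ x : Fb2, ∃ q : Fb[X], x = aeval yb q)
    (hdiv : ∀ P : Place Eb Fb, (p : ℤ) ∣ P.ord fb)
    (t2 : F2) (tb : Fb) (ht : φ t2 = algebraMap Fb Fb2 tb)
    (hne : ∀ a : Eb, tb - algebraMap Eb Fb a ≠ 0)
    {ϖ : A₀} (hϖ : Irreducible ϖ) (g : A₀[X]) (hg : Prime g) (hgϖ : ¬ Associated g (C ϖ))
    (hR : ∀ (P : Place Eb Fb) (a : Eb),
      (g.map ((algebraMap E Eb).comp (algebraMap A₀ E))).IsRoot a →
      0 < P.ord (tb - algebraMap Eb Fb a) → P.ord (tb - algebraMap Eb Fb a) = 1) :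
    S18UnramAbove A₀ E t2 g := by
  intro V hV hlt
  obtain ⟨W, P, π₁, hWV, hWEb, hP, hdisc, hordW⟩ :=
    s18r_core_place φ hφ hW p hp fb hfb yb hyb hspan hdiv V hV
  subst hWV
  set ι := algebraMap Fb Fb2 with hι
  set w := W.valuation with hw
  have hequiv := s18r_isEquiv_comap φ W
  have hcharE : CharZero E := charZero_of_injective_algebraMap (IsFractionRing.injective A₀ E)
  -- the polynomial over `Ē`
  set gb : Eb[X] := g.map ((algebraMap E Eb).comp (algebraMap A₀ E)) with hgb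
  have hdeg : 0 < g.natDegree := s18tu_natDegree_pos g hg hgϖ hϖ
  have hprim : g.IsPrimitive := hg.irreducible.isPrimitive hdeg.ne'
  have hGirr : Irreducible (g.map (algebraMap A₀ E)) :=
    (hprim.irreducible_iff_irreducible_map_fraction_map).mp hg.irreducible
  have hgbsep : gb.Separable := by
    rw [hgb, ← Polynomial.map_map]
    exact hGirr.separable.map
  have hgb0 : gb ≠ 0 := hgbsep.ne_zero
  -- `φ (g(t)) = ι (gb(tb))`
  have hφg : φ (aeval t2 g) = ι (aeval tb gb) := by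
    rw [aeval_def, hom_eval₂, ht, aeval_def, hom_eval₂, hgb, eval₂_map]
    congr 1
    ext c
    simp only [RingHom.comp_apply]
    rw [s18r_core_const (Fb := Fb) φ hφ c]
  have hx1 : w (φ (aeval t2 g)) < 1 := by
    have := hequiv.lt_one_iff_lt_one.mpr hlt
    rwa [Valuation.comap_apply] at this
  -- the valuation on `F̄`
  set v : Valuation Fb W.ValueGroup := w.comap ι with hv
  have hvK : ∀ c : Eb, v (algebraMap Eb Fb c) ≤ 1 := by
    intro c
    rw [hv, Valuation.comap_apply, hι, ← IsScalarTower.algebraMap_apply]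
    exact (W.valuation_le_one_iff _).mpr (hWEb c)
  have hvgb : v (aeval tb gb) < 1 := by
    rw [hv, Valuation.comap_apply, ← hφg]; exact hx1
  obtain ⟨a, haroot, hat⟩ := s18r_exists_root_lt_one v hvK tb _ gb rfl hgb0 hvgb
  obtain ⟨h, hgh, hha⟩ := s18r_separable_root gb hgbsep a haroot
  have hvh : v (aeval tb h) = 1 := s18r_val_aeval_eq_one v hvK tb a hat h hha
  set xb : Fb := tb - algebraMap Eb Fb a with hxb
  have hxb0 : xb ≠ 0 := hne a
  have hvg : v (aeval tb gb) = v xb := by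
    rw [hgh, map_mul, map_mul, hvh, mul_one, map_sub, aeval_X, aeval_C]
  have hπ0 : ι π₁ ≠ 0 := hdisc.1
  have hwπ0 : w (ι π₁) ≠ 0 := (Valuation.ne_zero_iff _).mpr hπ0
  have hwπ1 : w (ι π₁) < 1 := hdisc.2.1.1
  have hordpos : 0 < P.ord xb := by
    have h1 : w (ι π₁) ^ P.ord xb < w (ι π₁) ^ (0 : ℤ) := by
      rw [zpow_zero, ← hordW xb hxb0]; exact hat
    exact (zpow_lt_zpow_iff_right_of_lt_one₀ (zero_lt_iff.mpr hwπ0) hwπ1).mp h1
  have hord1 := hR P a haroot hordpos
  have hx : w (φ (aeval t2 g)) = w (ι π₁) ^ 1 := by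
    have : w (ι (aeval tb gb)) = w (ι xb) := hvg
    rw [hφg, this, hordW xb hxb0, hord1, zpow_one, pow_one]
  obtain ⟨τ, hτ, e', he', hval⟩ := s18r_descend_val φ W (ι π₁) hdisc _ 1 hx1 hx
  have he1 : e' = 1 := Nat.dvd_one.mp he'
  rw [he1, pow_one] at hval
  exact ⟨hlt, fun x hxlt => (hτ.2 x hxlt).trans_eq hval.symm⟩

end Core2

end Fermat.Agent.S18
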