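import Mathlib
import Fermat.Agent.S18.Core.Defs
import Fermat.Agent.S18.RH.Core

/-!
# S18, package RH : the generic chart theorem

`s18r_chart` : for `A₀ = 𝔸 ∩ E`, `F ⊆ E((q))`, `F̄ ⊆ ℚ̄((q))` with `s18dUp F ⊆ F̄`, `t ∈ F`,
`y ^ p · x₂ = x₁` (`x₁, x₂ ∈ F`), the chart hypotheses `S18Chart A₀ E ϖ t S` for `F(y) / E(t)` follow
from
* `hW`    : weak places of `F̄ / ℚ̄` are Prelude places (leaf (W) `s18r_exists_place`);
* `hdiv`  : `p ∣ ord_P x̄₁ - ord_P x̄₂` for all places `P` of `F̄`;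
* `hRgen` : `F̄ / ℚ̄(t̄)` is unramified over `t̄ = a` for `a ∉ S`;
* `hRspec`: the ramification indices over `t̄ = s`, `s ∈ S`, divide `wt s` (a unit of `A₀`, with
  `ζ_{wt s} ∈ E`).
The chart at infinity is the same theorem applied to `t⁻¹ ∈ F`.
-/

set_option autoImplicit false
set_option linter.unusedSectionVars false
set_option linter.style.haveILetI false
set_option synthInstance.maxHeartbeats 400000

noncomputable section

namespace Fermat.Agent.S18

open ModularCurve AlgebraicCurve IsLocalRing Polynomial IntermediateField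

section Up

variable (E : IntermediateField ℚ (AlgebraicClosure ℚ))

local notation "Qb" => AlgebraicClosure ℚ

theorem s18r_up_const (c : E) :
    s18dUp E (algebraMap E (LaurentSeries E) c) =
      algebraMap Qb (LaurentSeries Qb) (algebraMap E Qb c) := by
  rw [algebraMap_laurentSeries_eq_single, algebraMap_laurentSeries_eq_single]
  exact coeffMap_single _ _ _

theorem s18r_up_injective : Function.Injective (s18dUp E) := by
  intro x y hxy
  ext k
  have := congrArg (fun s => HahnSeries.coeff s k) hxy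
  simpa using this

variable {E}

/-- `E((q)) → ℚ̄((q))` maps `F(y)` into `F̄(ȳ)`. -/
theorem s18r_up_mem_ext (F : IntermediateField E (LaurentSeries E))
    (Fbar : IntermediateField Qb (LaurentSeries Qb))
    (hup : ∀ x ∈ F, s18dUp E x ∈ Fbar) (y : LaurentSeries E) :
    ∀ x ∈ s18cExt F y, s18dUp E x ∈ s18cExt Fbar (s18dUp E y) := by
  let K' : IntermediateField E (LaurentSeries E) :=
    Subfield.toIntermediateField ((s18cExt Fbar (s18dUp E y)).toSubfield.comap (s18dUp E))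
      (fun c => by
        show s18dUp E (algebraMap E (LaurentSeries E) c) ∈ s18cExt Fbar (s18dUp E y)
        rw [s18r_up_const]
        exact (s18cExt Fbar (s18dUp E y)).algebraMap_mem _)
  have hle : s18cExt F y ≤ K' := by
    refine sup_le (fun x hx => ?_) ?_
    · show s18dUp E x ∈ s18cExt Fbar (s18dUp E y)
      exact (le_sup_left : Fbar ≤ Fbar ⊔ Qb⟮s18dUp E y⟯) (hup x hx)
    · rw [adjoin_simple_le_iff]
      show s18dUp E y ∈ s18cExt Fbar (s18dUp E y)
      exact (le_sup_right : Qb⟮s18dUp E y⟯ ≤ Fbar ⊔ Qb⟮s18dUp E y⟯)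
        (mem_adjoin_simple_self Qb _)
  exact fun x hx => hle hx

/-- the ring homomorphism `F(y) → F̄(ȳ)` -/
def s18rPhi (F : IntermediateField E (LaurentSeries E))
    (Fbar : IntermediateField Qb (LaurentSeries Qb))
    (hup : ∀ x ∈ F, s18dUp E x ∈ Fbar) (y : LaurentSeries E) :
    s18cExt F y →+* s18cExt Fbar (s18dUp E y) :=
  ((s18dUp E).comp (algebraMap (s18cExt F y) (LaurentSeries E))).codRestrict
    (s18cExt Fbar (s18dUp E y)) (fun x => s18r_up_mem_ext F Fbar hup y x.1 x.2)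

@[simp] theorem s18rPhi_coe (F : IntermediateField E (LaurentSeries E))
    (Fbar : IntermediateField Qb (LaurentSeries Qb))
    (hup : ∀ x ∈ F, s18dUp E x ∈ Fbar) (y : LaurentSeries E) (x : s18cExt F y) :
    ((s18rPhi F Fbar hup y x : s18cExt Fbar (s18dUp E y)) : LaurentSeries Qb) =
      s18dUp E (x : LaurentSeries E) := rfl

end Up

section Span

variable {K L : Type*} [Field K] [Field L] [Algebra K L]

/-- the inclusion `F̄ → F̄(ȳ)` -/
def s18rIncl (Fbar : IntermediateField K L) (yb : L) :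
    Fbar →+* (Fbar ⊔ K⟮yb⟯ : IntermediateField K L) :=
  (IntermediateField.inclusion (le_sup_left : Fbar ≤ Fbar ⊔ K⟮yb⟯)).toRingHom

theorem s18r_span (Fbar : IntermediateField K L) (yb : L) (hyb : IsAlgebraic Fbar yb)
    (x : L) (hx : x ∈ Fbar ⊔ K⟮yb⟯) : ∃ q : Fbar[X], x = aeval yb q := by
  rw [← restrictScalars_adjoin_eq_sup, mem_restrictScalars, ← mem_toSubalgebra,
    adjoin_simple_toSubalgebra_of_isAlgebraic hyb, Algebra.adjoin_singleton_eq_range_aeval] at hx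
  obtain ⟨q, hq⟩ := hx
  exact ⟨q, hq.symm⟩

/-- Kummer data for `F̄(ȳ) / F̄`, `ȳ ^ p · x₂ = x₁`, `x₂ ≠ 0` (if `x₁ = 0` then `F̄(ȳ) = F̄` and we
take the generator `1`). -/
theorem s18r_kummer_data (Fbar : IntermediateField K L) (p : ℕ) (hp : p ≠ 0) (x₁ x₂ : Fbar)
    (hx₂ : x₂ ≠ 0) (yb : L) (hyb : yb ^ p * (x₂ : L) = (x₁ : L)) :
    ∃ (yb' : (Fbar ⊔ K⟮yb⟯ : IntermediateField K L)) (fb : Fbar), fb ≠ 0 ∧
      yb' ^ p = s18rIncl Fbar yb fb ∧
      (∀ x : (Fbar ⊔ K⟮yb⟯ : IntermediateField K L), ∃ q : Fbar[X],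
        x = q.eval₂ (s18rIncl Fbar yb) yb') ∧
      (x₁ ≠ 0 → fb = x₁ / x₂) ∧ (x₁ = 0 → fb = 1) := by
  have hx₂' : (x₂ : L) ≠ 0 := fun h => hx₂ (Subtype.ext h)
  by_cases hx₁ : x₁ = 0
  · -- degenerate case
    have hyb0 : yb = 0 := by
      rw [hx₁] at hyb
      have h1 : yb ^ p = 0 := by
        rcases mul_eq_zero.mp hyb with h | h
        · exact h
        · exact absurd h hx₂'
      exact pow_eq_zero_iff hp |>.mp h1
    refine ⟨1, 1, one_ne_zero, by rw [one_pow, map_one], fun x => ?_, fun h => absurd hx₁ h,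
      fun _ => rfl⟩
    have hle : (Fbar ⊔ K⟮yb⟯ : IntermediateField K L) ≤ Fbar := by
      rw [hyb0, adjoin_zero, sup_bot_eq]
    have hx : (x : L) ∈ Fbar := hle x.2
    refine ⟨C ⟨x, hx⟩, ?_⟩
    rw [eval₂_C]
    exact Subtype.ext rfl
  · have hx₁' : (x₁ : L) ≠ 0 := fun h => hx₁ (Subtype.ext h)
    have hpow : yb ^ p = ((x₁ / x₂ : Fbar) : L) := by
      rw [IntermediateField.coe_div, eq_div_iff hx₂']
      exact hyb
    have hmem : yb ∈ (Fbar ⊔ K⟮yb⟯ : IntermediateField K L) :=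
      (le_sup_right : K⟮yb⟯ ≤ Fbar ⊔ K⟮yb⟯) (mem_adjoin_simple_self K yb)
    have halg : IsAlgebraic Fbar yb := by
      refine ⟨X ^ p - C (x₁ / x₂), (monic_X_pow_sub_C _ hp).ne_zero, ?_⟩
      rw [map_sub, map_pow, aeval_X, aeval_C, hpow]
      exact sub_self _
    refine ⟨⟨yb, hmem⟩, x₁ / x₂, div_ne_zero hx₁ hx₂, Subtype.ext hpow, fun x => ?_,
      fun _ => rfl, fun h => absurd h hx₁⟩
    obtain ⟨q, hq⟩ := s18r_span Fbar yb halg x.1 x.2
    refine ⟨q, Subtype.ext ?_⟩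
    rw [hq, aeval_def]
    have := hom_eval₂ q (s18rIncl Fbar yb)
      (algebraMap (Fbar ⊔ K⟮yb⟯ : IntermediateField K L) L) ⟨yb, hmem⟩
    exact this.symm ▸ rfl

end Span

section Chart

local notation "Qb" => AlgebraicClosure ℚ

variable (A : ValuationSubring Qb) (E : IntermediateField ℚ Qb)

theorem s18r_not_isRoot_of_not_associated {R : Type*} [CommRing R] [IsDomain R] (g : R[X])
    (hg : Prime g) (s : R) (hgs : ¬ Associated g (X - C s)) : ¬ g.IsRoot s := by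
  intro hroot
  apply hgs
  obtain ⟨h, hh⟩ := dvd_iff_isRoot.mpr hroot
  have hirr := hg.irreducible
  rcases hirr.isUnit_or_isUnit hh with hu | hu
  · exact absurd hu (not_isUnit_X_sub_C s)
  · rw [hh]
    exact (associated_mul_unit_right _ _ hu).symm

/-- THE GENERIC CHART THEOREM: `S18Chart` for `F(y) / E(t)`, `y ^ p · x₂ = x₁`, from the
ramification data of `F̄ / ℚ̄(t̄)` (`hRgen`, `hRspec`), the divisibility of the divisor of
`x₁ / x₂` by `p` (`hdiv`) and the fact that weak places of `F̄` are places (`hW`, leaf (W)). -/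
theorem s18r_chart [IsDiscreteValuationRing (s18dVal A E)] (ϖ : s18dVal A E) (hϖ : Irreducible ϖ)
    (F : IntermediateField E (LaurentSeries E))
    (Fbar : IntermediateField Qb (LaurentSeries Qb))
    (hup : ∀ x ∈ F, s18dUp E x ∈ Fbar)
    (hW : ∀ W₁ : ValuationSubring Fbar, S18IsPlace Qb W₁ →
      ∃ P : Place Qb Fbar, P.toValuationSubring = W₁)
    (p : ℕ) (hp : p ≠ 0) (x₁ x₂ : LaurentSeries E) (h₁ : x₁ ∈ F) (h₂ : x₂ ∈ F) (hx₂ : x₂ ≠ 0)
    (y : LaurentSeries E) (hy : y ^ p * x₂ = x₁)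
    (hdiv : ∀ P : Place Qb Fbar,
      (p : ℤ) ∣ P.ord (⟨s18dUp E x₁, hup _ h₁⟩ : Fbar) - P.ord (⟨s18dUp E x₂, hup _ h₂⟩ : Fbar))
    (t : F)
    (hne : ∀ a : Qb, (⟨s18dUp E t, hup _ t.2⟩ : Fbar) - algebraMap Qb Fbar a ≠ 0)
    (S : Finset (s18dVal A E)) (wt : s18dVal A E → ℕ)
    (hsep : ∀ s ∈ S, ∀ s' ∈ S, s ≠ s' → IsUnit (s - s'))
    (hwt : ∀ s ∈ S, IsUnit ((wt s : ℕ) : s18dVal A E) ∧ ∃ ζ : E, IsPrimitiveRoot ζ (wt s))
    (hRgen : ∀ (P : Place Qb Fbar) (a : Qb), (∀ s ∈ S, a ≠ algebraMap E Qb (s : E)) →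
      0 < P.ord ((⟨s18dUp E t, hup _ t.2⟩ : Fbar) - algebraMap Qb Fbar a) →
      P.ord ((⟨s18dUp E t, hup _ t.2⟩ : Fbar) - algebraMap Qb Fbar a) = 1)
    (hRspec : ∀ s ∈ S, ∀ P : Place Qb Fbar,
      0 < P.ord ((⟨s18dUp E t, hup _ t.2⟩ : Fbar) -
        algebraMap Qb Fbar (algebraMap E Qb (s : E))) →
      P.ord ((⟨s18dUp E t, hup _ t.2⟩ : Fbar) - algebraMap Qb Fbar (algebraMap E Qb (s : E))) ∣
        ((wt s : ℕ) : ℤ)) :
    S18Chart (s18dVal A E) E ϖ (s18cLift F y t) S := by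
  classical
  haveI : Algebra.IsAlgebraic ℚ Qb := AlgebraicClosure.isAlgebraic ℚ
  haveI : Algebra.IsAlgebraic E Qb := Algebra.IsAlgebraic.tower_top (K := ℚ) E
  set yb := s18dUp E y with hyb
  set X₁ : Fbar := ⟨s18dUp E x₁, hup _ h₁⟩ with hX₁
  set X₂ : Fbar := ⟨s18dUp E x₂, hup _ h₂⟩ with hX₂
  have hX₂0 : X₂ ≠ 0 := by
    intro h
    apply hx₂
    apply s18r_up_injective E
    rw [map_zero]
    exact congrArg Subtype.val h
  have hyb' : yb ^ p * (X₂ : LaurentSeries Qb) = (X₁ : LaurentSeries Qb) := by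
    have := congrArg (s18dUp E) hy
    rwa [map_mul, map_pow] at this
  obtain ⟨yb', fb, hfb0, hpow, hspan, hfb1, hfb2⟩ :=
    s18r_kummer_data Fbar p hp X₁ X₂ hX₂0 yb hyb'
  -- the divisibility
  have hdiv' : ∀ P : Place Qb Fbar, (p : ℤ) ∣ P.ord fb := by
    intro P
    by_cases hX₁0 : X₁ = 0
    · rw [hfb2 hX₁0, Place.ord_one]; exact dvd_zero _
    · rw [hfb1 hX₁0, div_eq_mul_inv, P.ord_mul hX₁0 (inv_ne_zero hX₂0), P.ord_inv,
        ← sub_eq_add_neg]
      exact hdiv P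
  -- the algebra structure
  letI : Algebra Fbar (Fbar ⊔ Qb⟮yb⟯ : IntermediateField Qb (LaurentSeries Qb)) :=
    (s18rIncl Fbar yb).toAlgebra
  haveI : IsScalarTower Qb Fbar (Fbar ⊔ Qb⟮yb⟯ : IntermediateField Qb (LaurentSeries Qb)) :=
    IsScalarTower.of_algebraMap_eq (fun _ => rfl)
  set φ : s18cExt F y →+* (Fbar ⊔ Qb⟮yb⟯ : IntermediateField Qb (LaurentSeries Qb)) :=
    s18rPhi F Fbar hup y with hφdef
  have hφ : ∀ c : E, φ (algebraMap E (s18cExt F y) c) =
      algebraMap Qb (Fbar ⊔ Qb⟮yb⟯ : IntermediateField Qb (LaurentSeries Qb))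
        (algebraMap E Qb c) := fun c =>
    Subtype.ext (s18r_up_const E c)
  have hpow' : yb' ^ p =
      algebraMap Fbar (Fbar ⊔ Qb⟮yb⟯ : IntermediateField Qb (LaurentSeries Qb)) fb := hpow
  have hspan' : ∀ x : (Fbar ⊔ Qb⟮yb⟯ : IntermediateField Qb (LaurentSeries Qb)),
      ∃ q : Fbar[X], x = aeval yb' q := fun x => by
    obtain ⟨q, hq⟩ := hspan x
    exact ⟨q, by rw [aeval_def]; exact hq⟩
  set tb : Fbar := ⟨s18dUp E t, hup _ t.2⟩ with htb
  have ht : φ (s18cLift F y t) =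
      algebraMap Fbar (Fbar ⊔ Qb⟮yb⟯ : IntermediateField Qb (LaurentSeries Qb)) tb := Subtype.ext rfl
  have hcoe : ∀ s : s18dVal A E, algebraMap (s18dVal A E) E s = (s : E) := fun s => rfl
  refine ⟨hsep, fun g hg hgϖ hgS => ?_, fun s hs => ⟨wt s, (hwt s hs).1, (hwt s hs).2, ?_⟩⟩
  · refine s18r_core_unram φ hφ hW p hp fb hfb0 yb' hpow' hspan' hdiv' (s18cLift F y t) tb ht hne
      hϖ g hg hgϖ (fun P a haroot hpos => hRgen P a (fun s hs has => ?_) hpos)
    apply s18r_not_isRoot_of_not_associated g hg s (hgS s hs)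
    have hinj : Function.Injective ((algebraMap E Qb).comp (algebraMap (s18dVal A E) E)) :=
      (algebraMap E Qb).injective.comp (IsFractionRing.injective (s18dVal A E) E)
    have h1 : a = ((algebraMap E Qb).comp (algebraMap (s18dVal A E) E)) s := has
    rw [h1, IsRoot.def, eval_map_apply] at haroot
    rw [IsRoot.def]
    apply hinj
    rw [map_zero]
    exact haroot
  · exact s18r_core_tame φ hφ hW p hp fb hfb0 yb' hpow' hspan' hdiv' (s18cLift F y t) tb ht hne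
      s (wt s) (hRspec s hs)

end Chart

end Fermat.Agent.S18
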