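import Mathlib
import Fermat.Agent.S24.X0Places

/-!
# S18, package RH, leaf (R): ramification of `F_ℚ̄(N) / ℚ̄(j)`

Re-run of the proofs of `card_places_of_point` (`S24/EmbPoint.lean`) and `card_places_infty`
(`S24/EmbCusp.lean`) with `exists_places_of_embeddings` (`S24/EmbCount.lean`) instead of its
cardinality corollary: every place `v` over `j = a` is some `κ i`, and
`(ε i f).order * ord_v(t) = e * ord_v(f)` for all `f ≠ 0`; with `f` a uniformiser of `v`
(`ord_v f = 1`) this gives `ord_v(t) ∣ e`, where `t = j - a`, `e = 3, 2, 1`, resp. `t = 1/j`,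
`e = N`.
-/

set_option autoImplicit false
set_option linter.unusedSectionVars false

noncomputable section

namespace Fermat.Agent.S18

open Fermat.Agent.S24 AlgebraicCurve ModularCurve UpperHalfPlane
open scoped MatrixGroups Manifold ModularForm Real

/-- abstract step: from the conclusion of `exists_places_of_embeddings`, `ord_v t ∣ e`. -/
theorem s18rr_dvd_of_kappa {K F : Type*} [Field K] [Field F] [Algebra K F] {t : F}
    {ι : Type*} (ε : ι → F →+* LaurentSeries ℂ) (e : ℕ) (κ : ι → Place K F)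
    (hm : ∀ i (f : F), f ≠ 0 → (ε i f).order * (κ i).ord t = (e : ℤ) * (κ i).ord f)
    (hsurj : ∀ v : Place K F, 0 < v.ord t → ∃ i, κ i = v)
    (v : Place K F) (hv : 0 < v.ord t) : v.ord t ∣ (e : ℤ) := by
  obtain ⟨i, rfl⟩ := hsurj v hv
  obtain ⟨u, hu⟩ := IsDiscreteValuationRing.exists_irreducible (κ i).toValuationSubring
  have hu0 : (u : F) ≠ 0 := PlaceOrd.coe_irreducible_ne_zero (κ i) hu
  have h1 := hm i _ hu0
  rw [(κ i).ord_coe_irreducible hu, mul_one] at h1
  exact ⟨_, by rw [← h1, mul_comm]⟩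

variable (N : ℕ) [NeZero N]

/-- Ramification index of a place over `j = a` divides the order `e` of `j - a` at `τ₀`. -/
theorem s18rr_ord_dvd_of_point (a : QBar) (τ₀ : ℍ) (hτ₀ : jFun τ₀ = iotaBar a)
    (γ₀ : SL(2, ℤ)) (hγ₀ : γ₀ • τ₀ = τ₀) (e : ℕ)
    (he : analyticOrderAt (fun z : ℂ => jFun (ofComplex z) - jFun τ₀) (τ₀ : ℂ) = e)
    (hζ : IsPrimitiveRoot (rotFactor γ₀ τ₀) e)
    (v : Place QBar (modularFunctionFieldBar N))
    (hv : 0 < v.ord (jBar N - algebraMap QBar (modularFunctionFieldBar N) a)) :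
    v.ord (jBar N - algebraMap QBar (modularFunctionFieldBar N) a) ∣ (e : ℤ) := by
  have hfin : Finite (SL(2, ℤ) ⧸ CongruenceSubgroup.Gamma0 N) := finite_quotient_Gamma0 N
  let _inst : Fintype (SL(2, ℤ) ⧸ CongruenceSubgroup.Gamma0 N) := Fintype.ofFinite _
  have hepos : 0 < e := pos_of_analyticOrderAt_jFun_sub τ₀ e he
  have hζ0 : rotFactor γ₀ τ₀ ≠ 0 := hζ.ne_zero hepos.ne'
  set ζ : ℂˣ := Units.mk0 (rotFactor γ₀ τ₀) hζ0 with hζdef
  have hζval : (ζ : ℂ) = rotFactor γ₀ τ₀ := rfl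
  have ht : IsSepGen QBar (jBar N - algebraMap QBar (modularFunctionFieldBar N) a) :=
    (isSepGen_jBar N).sub_algebraMap a
  obtain ⟨κ, hm, -, hsurj, -⟩ := exists_places_of_embeddings ht
    (fun q : SL(2, ℤ) ⧸ CongruenceSubgroup.Gamma0 N => pointEmb N τ₀ q.out)
    (pointEmb_out_injective N τ₀)
    (by rw [(isSepGen_jBar N).finrank_sub_algebraMap a, finrank_jBar, Fintype.card_eq_nat_card])
    (fun i j c => by rw [pointEmb_algebraMap, pointEmb_algebraMap])
    (fun i c hc => by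
      rw [pointEmb_algebraMap, HahnSeries.C_apply]
      apply HahnSeries.order_single
      intro h0
      exact hc (iotaBar_injective (by rw [h0, map_zero])))
    (fun i j => by rw [pointEmb_jBar_sub, pointEmb_jBar_sub])
    e hepos (fun i => order_pointEmb_jBar_sub N τ₀ _ a hτ₀ e he)
    (rotFactor γ₀ τ₀) hζ (rotLaurent ζ) (fun f m => by rw [rotLaurent_coeff, hζval])
    (MulAction.toPerm γ₀⁻¹)
    (by
      intro q f
      rw [rotLaurent_pointEmb N τ₀ γ₀ hγ₀ ζ hζval]
      obtain ⟨h, hh, hout⟩ := exists_out_smul_eq N γ₀⁻¹ q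
      show _ = pointEmb N τ₀ (γ₀⁻¹ • q).out f
      rw [hout, pointEmb_mul_of_mem_Gamma0 N τ₀ _ h hh])
  exact s18rr_dvd_of_kappa _ e κ hm hsurj v hv

/-- (R-0) the ramification index of a place of `F_ℚ̄(N)` over `j = 0` divides `3`. -/
theorem s18r_ord_dvd_zero (N : ℕ) [NeZero N] (v : Place QBar (modularFunctionFieldBar N))
    (hv : 0 < v.ord (jBar N)) : v.ord (jBar N) ∣ (3 : ℤ) := by
  have hτ : jFun ρ = iotaBar 0 := by rw [jFun_ρ, map_zero]
  have h0 : jBar N - algebraMap QBar (modularFunctionFieldBar N) 0 = jBar N := by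
    rw [map_zero, sub_zero]
  have key := s18rr_ord_dvd_of_point N 0 ρ hτ (ModularGroup.S * ModularGroup.T) ST_smul_ρ 3
    (by rw [analyticOrderAt_jFun_sub, if_pos jFun_ρ]; rfl)
    (isPrimitiveRoot_rotFactor_ST ρ ST_smul_ρ) v (by rw [h0]; exact hv)
  rw [h0] at key
  exact_mod_cast key

/-- (R-1728) the ramification index of a place of `F_ℚ̄(N)` over `j = 1728` divides `2`. -/
theorem s18r_ord_dvd_1728 (N : ℕ) [NeZero N] (v : Place QBar (modularFunctionFieldBar N))
    (hv : 0 < v.ord (jBar N - algebraMap QBar (modularFunctionFieldBar N) 1728)) :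
    v.ord (jBar N - algebraMap QBar (modularFunctionFieldBar N) 1728) ∣ (2 : ℤ) := by
  have hτ : jFun UpperHalfPlane.I = iotaBar 1728 := by rw [jFun_I, map_ofNat]
  have hζ : IsPrimitiveRoot (rotFactor ModularGroup.S UpperHalfPlane.I) 2 := by
    rw [rotFactor_S _ S_smul_I]
    exact IsPrimitiveRoot.neg_one 0 (by norm_num)
  have h0 : jFun UpperHalfPlane.I ≠ 0 := by rw [jFun_I]; norm_num
  have key := s18rr_ord_dvd_of_point N 1728 UpperHalfPlane.I hτ ModularGroup.S S_smul_I 2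
    (by rw [analyticOrderAt_jFun_sub, if_neg h0, if_pos jFun_I]; rfl) hζ v hv
  exact_mod_cast key

/-- (R-generic) `F_ℚ̄(N) / ℚ̄(j)` is unramified over `j = a`, `a ≠ 0, 1728`. -/
theorem s18r_ord_eq_one (N : ℕ) [NeZero N] (a : QBar) (ha0 : a ≠ 0) (ha : a ≠ 1728)
    (v : Place QBar (modularFunctionFieldBar N))
    (hv : 0 < v.ord (jBar N - algebraMap QBar (modularFunctionFieldBar N) a)) :
    v.ord (jBar N - algebraMap QBar (modularFunctionFieldBar N) a) = 1 := by
  obtain ⟨τ₀, hτ⟩ := jFun_surjective (iotaBar a)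
  have h0 : jFun τ₀ ≠ 0 := by
    rw [hτ]
    exact fun h => ha0 (iotaBar.injective (by rw [h, map_zero]))
  have h1 : jFun τ₀ ≠ 1728 := by
    rw [hτ]
    exact fun h => ha (iotaBar.injective (by rw [h, map_ofNat]))
  have hζ : IsPrimitiveRoot (rotFactor 1 τ₀) 1 := by
    rw [rotFactor_one]
    exact IsPrimitiveRoot.one
  have key := s18rr_ord_dvd_of_point N a τ₀ hτ 1 (one_smul _ _) 1
    (by rw [analyticOrderAt_jFun_sub, if_neg h0, if_neg h1]; rfl) hζ v hv
  have h2 : v.ord (jBar N - algebraMap QBar (modularFunctionFieldBar N) a) ∣ (1 : ℤ) := by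
    exact_mod_cast key
  exact Int.eq_one_of_dvd_one hv.le h2

/-- (R-cusp) the ramification index of a place of `F_ℚ̄(N)` over `j = ∞` divides `N`. -/
theorem s18r_ord_dvd_cusp (N : ℕ) [NeZero N] (v : Place QBar (modularFunctionFieldBar N))
    (hv : v.ord (jBar N) < 0) : v.ord (jBar N) ∣ (N : ℤ) := by
  classical
  have : Finite (SL(2, ℤ) ⧸ CongruenceSubgroup.Gamma0 N) := finite_quotient_Gamma0 N
  let _ : Fintype (SL(2, ℤ) ⧸ CongruenceSubgroup.Gamma0 N) := Fintype.ofFinite _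
  have ht : IsSepGen QBar (jBar N)⁻¹ := (isSepGen_jBar N).inv
  obtain ⟨ζ, hζ⟩ : ∃ ζ : ℂˣ, (ζ : ℂ) = Complex.exp (2 * π * Complex.I / N) :=
    ⟨Units.mk0 _ (Complex.exp_ne_zero _), rfl⟩
  have hζprim : IsPrimitiveRoot (ζ : ℂ) N := by
    rw [hζ]
    exact Complex.isPrimitiveRoot_exp N (NeZero.ne N)
  have hout : ∀ (g : SL(2, ℤ)),
      cuspEmb N (QuotientGroup.mk g : SL(2, ℤ) ⧸ CongruenceSubgroup.Gamma0 N).out =
        cuspEmb N g := by
    intro g
    obtain ⟨γ, hγ⟩ := QuotientGroup.mk_out_eq_mul (CongruenceSubgroup.Gamma0 N) g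
    rw [hγ]
    exact cuspEmb_mul_of_mem_Gamma0 N g γ γ.2
  obtain ⟨κ, hm, -, hsurj, -⟩ := exists_places_of_embeddings ht
    (ι := SL(2, ℤ) ⧸ CongruenceSubgroup.Gamma0 N) (fun q => cuspEmb N q.out)
    (by
      intro q q' h
      have h1 := mem_Gamma0_of_cuspEmb_eq N q.out q'.out h
      have h2 : (QuotientGroup.mk q.out : SL(2, ℤ) ⧸ CongruenceSubgroup.Gamma0 N) =
          QuotientGroup.mk q'.out := QuotientGroup.eq.mpr h1
      rwa [QuotientGroup.out_eq', QuotientGroup.out_eq'] at h2)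
    (by
      rw [(isSepGen_jBar N).finrank_inv, finrank_jBar, Nat.card_eq_fintype_card])
    (fun i j c => by rw [cuspEmb_algebraMap, cuspEmb_algebraMap])
    (fun i c hc => by
      rw [cuspEmb_algebraMap, HahnSeries.C_apply]
      exact HahnSeries.order_single (fun h => hc (iotaBar_injective (by rw [h, map_zero]))))
    (fun i j => by rw [map_inv₀, map_inv₀, cuspEmb_jBar, cuspEmb_jBar])
    N (NeZero.pos N) (fun i => cuspEmb_jBar_inv_order N _)
    (ζ : ℂ) hζprim (rotLaurent ζ) (rotLaurent_coeff ζ)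
    (MulAction.toPerm (ModularGroup.T⁻¹ : SL(2, ℤ)))
    (by
      intro q f
      rw [cuspEmb_T_inv_mul N _ ζ hζ]
      have h1 : (MulAction.toPerm (ModularGroup.T⁻¹ : SL(2, ℤ)) q :
          SL(2, ℤ) ⧸ CongruenceSubgroup.Gamma0 N) =
          QuotientGroup.mk (ModularGroup.T⁻¹ * q.out) := by
        conv_lhs => rw [← QuotientGroup.out_eq' q]
        rfl
      rw [h1, hout])
  have hv' : 0 < v.ord (jBar N)⁻¹ := by rw [Place.ord_inv]; omega
  have key := s18rr_dvd_of_kappa _ N κ hm hsurj v hv'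
  rw [Place.ord_inv, neg_dvd] at key
  exact key

end Fermat.Agent.S18
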