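import Mathlib
import Fermat.Prelude.Def_AlgebraicCurve_DivisorClassGroup
import Fermat.Agent.S18.T.Defs
import Fermat.Agent.S18.T.AbhyankarCore
import Fermat.Agent.S18.T.TameOther

/-!
# S18, package RH, leaf (W): weak places of a function field are places

`F / K` a function field in one variable (`t` transcendental, `F` finite over `K(t)`), `V` a
valuation subring of `F` containing `K`, `V ≠ ⊤` (`S18IsPlace K V`).  Then `V` is a discrete
valuation ring, i.e. the valuation subring of a Prelude `Place K F`.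

Elementary proof: WLOG `t ∈ V` (else `t⁻¹`); there is an irreducible `G ∈ K[X]` with
`γ = v(G(t)) < 1`; every nonzero element of `K(t)` has value in `γ^ℤ`; elements of `F` whose
values are pairwise distinct modulo `γ^ℤ` are `K(t)`-linearly independent, so there are at most
`[F : K(t)]` values in `[γ, 1)`; the largest one `a₀` is the value of a uniformiser, some power of
`a₀` is `≤ γ`, and `s18to_arch` gives discreteness: every value `≤ 1` is a power of `a₀`; hence
every ideal is principal.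
-/

set_option autoImplicit false

noncomputable section

namespace Fermat.Agent.S18

open IntermediateField Polynomial

section Sum

variable {F : Type*} [Field F] {Γ : Type*} [LinearOrderedCommGroupWithZero Γ]

/-- a finite sum whose nonzero terms have pairwise distinct values, not all zero, is nonzero -/
theorem s18rw_sum_ne_zero (v : Valuation F Γ) {ι : Type*} (s : Finset ι) (f : ι → F)
    (hdist : ∀ i ∈ s, ∀ j ∈ s, f i ≠ 0 → f j ≠ 0 → v (f i) = v (f j) → i = j)
    (hne : ∃ i ∈ s, f i ≠ 0) : ∑ i ∈ s, f i ≠ 0 := by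
  classical
  have hsum : ∑ i ∈ s, f i = ∑ i ∈ s.filter (fun i => f i ≠ 0), f i :=
    (Finset.sum_filter_ne_zero s).symm
  have hne' : (s.filter (fun i => f i ≠ 0)).Nonempty := by
    obtain ⟨i, hi, hfi⟩ := hne
    exact ⟨i, Finset.mem_filter.mpr ⟨hi, hfi⟩⟩
  obtain ⟨j, hj, hmax⟩ := Finset.exists_max_image _ (fun i => v (f i)) hne'
  have hjs := Finset.mem_filter.mp hj
  rw [hsum]
  intro h0
  have key : v (∑ i ∈ s.filter (fun i => f i ≠ 0), f i) = v (f j) := by
    refine v.map_sum_eq_of_lt hj fun i hi => ?_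
    have hi' := Finset.mem_sdiff.mp hi
    have his := Finset.mem_filter.mp hi'.1
    refine lt_of_le_of_ne (hmax i hi'.1) fun heq => ?_
    exact hi'.2 (Finset.mem_singleton.mpr (hdist i his.1 j hjs.1 his.2 hjs.2 heq))
  rw [h0, map_zero] at key
  exact hjs.2 ((v.zero_iff).mp key.symm)

/-- two values in `[γ, 1)` congruent modulo `γ^ℤ` are equal -/
theorem s18rw_eq_of_zpow_mul_eq {γ a b : Γ} (hγ0 : γ ≠ 0) (hγ1 : γ < 1)
    (ha : γ ≤ a ∧ a < 1) (hb : γ ≤ b ∧ b < 1) (k l : ℤ) (h : γ ^ k * a = γ ^ l * b) : a = b := by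
  wlog hkl : k ≤ l generalizing a b k l
  · exact (this hb ha l k h.symm (le_of_not_ge hkl)).symm
  obtain ⟨m, rfl⟩ := Int.le.dest hkl
  rw [zpow_add₀ hγ0, mul_assoc] at h
  have h1 : a = γ ^ m * b := by
    have := mul_left_cancel₀ (zpow_ne_zero k hγ0) h
    rwa [zpow_natCast] at this
  rcases Nat.eq_zero_or_pos m with rfl | hm
  · simpa using h1
  · exfalso
    have hγpos : 0 < γ := zero_lt_iff.mpr hγ0
    have h2 : γ ^ m ≤ γ := by
      calc γ ^ m ≤ γ ^ 1 := pow_le_pow_right_of_le_one' hγ1.le hm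
        _ = γ := pow_one γ
    have h3 : a < γ := by
      rw [h1]
      calc γ ^ m * b ≤ γ * b := by gcongr
        _ < γ * 1 := by gcongr; exact hb.2
        _ = γ := mul_one γ
    exact absurd ha.1 (not_le.mpr h3)

variable {K : Type*} [Field K] [Algebra K F]

/-- nonzero elements of `K(z)` have values in `γ^ℤ`, `γ = v (G(z))`. -/
theorem s18rw_val_adjoin (v : Valuation F Γ) (hK : ∀ c : K, v (algebraMap K F c) ≤ 1)
    (z : F) (hz : v z ≤ 1) (G : K[X]) (hG : Irreducible G)
    (hGz : v (aeval z G) < 1) (hGz0 : v (aeval z G) ≠ 0)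
    (c : F) (hc : c ∈ K⟮z⟯) (hc0 : c ≠ 0) : ∃ k : ℤ, v c = v (aeval z G) ^ k := by
  obtain ⟨p, q, rfl⟩ := (mem_adjoin_simple_iff K c).mp hc
  have hp0 : p ≠ 0 := by rintro rfl; simp at hc0
  have hq0 : q ≠ 0 := by rintro rfl; simp at hc0
  obtain ⟨a, ha⟩ := s18to_poly_val v hK z hz G hG hGz p hp0
  obtain ⟨b, hb⟩ := s18to_poly_val v hK z hz G hG hGz q hq0
  refine ⟨(a : ℤ) - b, ?_⟩
  rw [map_div₀, ha, hb, zpow_sub₀ hGz0, zpow_natCast, zpow_natCast]

end Sum

section Core

variable {K F : Type*} [Field K] [Field F] [Algebra K F]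

theorem s18rw_core (z : F) (hzt : Transcendental K z) [FiniteDimensional K⟮z⟯ F]
    (V : ValuationSubring F) (hV : S18IsPlace K V) (hzV : z ∈ V) :
    IsPrincipalIdealRing V := by
  classical
  obtain ⟨hVtop, hVK⟩ := hV
  set v := V.valuation with hv
  have hvK : ∀ c : K, v (algebraMap K F c) ≤ 1 := fun c =>
    (V.valuation_le_one_iff _).mpr (hVK c)
  have hz1 : v z ≤ 1 := (V.valuation_le_one_iff _).mpr hzV
  -- an element of valuation `< 1`
  obtain ⟨x, hx⟩ : ∃ x : F, x ∉ V := by
    by_contra hcon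
    push Not at hcon
    exact hVtop (eq_top_iff.mpr fun x _ => hcon x)
  have hx1 : 1 < v x := by rw [← not_le, V.valuation_le_one_iff]; exact hx
  have hx0 : x ≠ 0 := by rintro rfl; exact hx V.zero_mem
  have hy1 : v x⁻¹ < 1 := by rw [map_inv₀]; exact inv_lt_one_of_one_lt₀ hx1
  obtain ⟨q, hq0, hq⟩ := s18to_exists_poly_le v hvK z hz1 x⁻¹ (inv_ne_zero hx0) hy1.le
    (s18ta_isAlgebraic_adjoin z x⁻¹)
  let μ : K[X] →* V.ValueGroup :=
    (v : F →* V.ValueGroup).comp ((aeval z : K[X] →ₐ[K] F) : K[X] →* F)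
  have hμ : ∀ p : K[X], μ p ≤ 1 := fun p => s18ta_val_aeval_le_one v hvK z hz1 p
  obtain ⟨G, hGp, hGv⟩ := s18to_exists_prime_lt_one μ hμ q hq0 (lt_of_le_of_lt hq hy1)
  have hGirr : Irreducible G := hGp.irreducible
  have hGv' : v (aeval z G) < 1 := hGv
  have hGv0 : v (aeval z G) ≠ 0 :=
    (v.ne_zero_iff).mpr fun h => hGirr.ne_zero (transcendental_iff.mp hzt G h)
  set γ := v (aeval z G) with hγ
  have hγpos : 0 < γ := zero_lt_iff.mpr hGv0
  -- the set of values in `[γ, 1)` is finite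
  set S : Set V.ValueGroup := {a | γ ≤ a ∧ a < 1} with hS
  set n := Module.finrank K⟮z⟯ F with hn
  have hSfin : S.Finite := by
    by_contra hinf
    obtain ⟨T, hTS, hTcard⟩ := (Set.not_finite.mp hinf).exists_subset_card_eq (n + 1)
    choose x hx using V.valuation_surjective
    have hli : LinearIndependent K⟮z⟯ (fun a : T => x a) := by
      rw [linearIndependent_iff']
      intro s g hsum i hi
      by_contra hgi
      have hxne : ∀ a : T, x a ≠ 0 := fun a h0 => by
        have h1 := hx a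
        rw [h0, map_zero] at h1
        exact (lt_of_lt_of_le hγpos (hTS a.2).1).ne h1
      refine s18rw_sum_ne_zero v s (fun a => g a • x a) ?_ ⟨i, hi, ?_⟩ hsum
      · intro a _ b _ hfa hfb hab
        have hga : (g a : F) ≠ 0 := fun h0 => hfa (by
          have : g a = 0 := Subtype.ext h0
          rw [this, zero_smul])
        have hgb : (g b : F) ≠ 0 := fun h0 => hfb (by
          have : g b = 0 := Subtype.ext h0
          rw [this, zero_smul])
        obtain ⟨k, hk⟩ := s18rw_val_adjoin v hvK z hz1 G hGirr hGv' hGv0 (g a) (g a).2 hga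
        obtain ⟨l, hl⟩ := s18rw_val_adjoin v hvK z hz1 G hGirr hGv' hGv0 (g b) (g b).2 hgb
        have e1 : ∀ c : T, v (g c • x c) = v (g c : F) * (c : V.ValueGroup) := fun c => by
          rw [IntermediateField.smul_def, smul_eq_mul, map_mul, hx]
        rw [e1, e1, hk, hl] at hab
        exact Subtype.ext (s18rw_eq_of_zpow_mul_eq hGv0 hGv' (hTS a.2) (hTS b.2) k l hab)
      · exact smul_ne_zero hgi (hxne i)
    have hcard := hli.fintype_card_le_finrank
    rw [Fintype.card_coe, hTcard] at hcard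
    omega
  obtain ⟨a₀, ha₀S, ha₀max⟩ := Set.exists_max_image S id hSfin ⟨γ, le_refl _, hGv'⟩
  have ha₀pos : 0 < a₀ := lt_of_lt_of_le hγpos ha₀S.1
  have ha₀1 : a₀ < 1 := ha₀S.2
  -- `a₀` is the largest value `< 1`
  have hunif : ∀ b : V.ValueGroup, b < 1 → b ≤ a₀ := fun b hb => by
    by_cases hγb : γ ≤ b
    · exact ha₀max b ⟨hγb, hb⟩
    · exact (not_le.mp hγb).le.trans ha₀S.1
  -- some power of `a₀` is `≤ γ`
  obtain ⟨M, hM⟩ : ∃ M : ℕ, a₀ ^ M ≤ γ := by
    by_contra hcon
    push Not at hcon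
    refine (Set.infinite_of_injective_forall_mem (f := fun m : ℕ => a₀ ^ (m + 1)) ?_ ?_) hSfin
    · exact (pow_right_strictAnti₀ ha₀pos ha₀1).injective.comp (add_left_injective 1)
    · intro m
      exact ⟨(hcon _).le, pow_lt_one₀ ha₀pos.le ha₀1 (Nat.succ_ne_zero m)⟩
  -- every nonzero value `≤ 1` is a power of `a₀`
  have hpow : ∀ y : F, y ≠ 0 → v y ≤ 1 → ∃ m : ℕ, v y = a₀ ^ m := by
    intro y hy0 hy1
    obtain ⟨k, hk⟩ := s18to_arch v hvK z hz1 G hGirr hGv' y hy0 (s18ta_isAlgebraic_adjoin z y)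
    have hN : ∃ N : ℕ, a₀ ^ N ≤ v y :=
      ⟨M * k, by rw [pow_mul]; exact (pow_le_pow_left₀ zero_le hM k).trans hk⟩
    refine ⟨Nat.find hN, le_antisymm ?_ (Nat.find_spec hN)⟩
    rcases Nat.eq_zero_or_pos (Nat.find hN) with h0 | hpos
    · rw [h0, pow_zero]; exact hy1
    · have hlt : v y < a₀ ^ (Nat.find hN - 1) :=
        not_le.mp (Nat.find_min hN (Nat.sub_lt hpos one_pos))
      have hpp : 0 < a₀ ^ (Nat.find hN - 1) := pow_pos ha₀pos _
      have h1 : v y * (a₀ ^ (Nat.find hN - 1))⁻¹ < 1 := by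
        calc v y * (a₀ ^ (Nat.find hN - 1))⁻¹
            < a₀ ^ (Nat.find hN - 1) * (a₀ ^ (Nat.find hN - 1))⁻¹ :=
              mul_lt_mul_of_pos_right hlt (zero_lt_iff.mpr (inv_ne_zero hpp.ne'))
          _ = 1 := mul_inv_cancel₀ hpp.ne'
      have h2 := hunif _ h1
      calc v y = v y * (a₀ ^ (Nat.find hN - 1))⁻¹ * a₀ ^ (Nat.find hN - 1) := by
            rw [mul_assoc, inv_mul_cancel₀ hpp.ne', mul_one]
        _ ≤ a₀ * a₀ ^ (Nat.find hN - 1) := by gcongr
        _ = a₀ ^ (Nat.find hN) := by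
            rw [← pow_succ']; congr 1; omega
  -- every ideal is principal
  refine ⟨fun I => ?_⟩
  by_cases hI : I = ⊥
  · rw [hI]; exact bot_isPrincipal
  · obtain ⟨y, hyI, hy0⟩ := Submodule.exists_mem_ne_zero_of_ne_bot hI
    have hval0 : ∀ w : V, w ≠ 0 → (w : F) ≠ 0 := fun w hw h0 => hw (Subtype.ext h0)
    have hex : ∃ m : ℕ, ∃ y ∈ I, y ≠ 0 ∧ v (y : F) = a₀ ^ m := by
      obtain ⟨m, hm⟩ := hpow (y : F) (hval0 y hy0) ((V.valuation_le_one_iff _).mpr y.2)
      exact ⟨m, y, hyI, hy0, hm⟩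
    obtain ⟨y₀, hy₀I, hy₀0, hy₀v⟩ := Nat.find_spec hex
    refine ⟨⟨y₀, le_antisymm ?_ ?_⟩⟩
    · intro w hwI
      by_cases hw0 : w = 0
      · rw [hw0]; exact zero_mem _
      obtain ⟨m, hm⟩ := hpow (w : F) (hval0 w hw0) ((V.valuation_le_one_iff _).mpr w.2)
      have hle : Nat.find hex ≤ m := Nat.find_min' hex ⟨w, hwI, hw0, hm⟩
      have hwy : v (w : F) ≤ v (y₀ : F) := by
        rw [hm, hy₀v]; exact pow_le_pow_right_of_le_one' ha₀1.le hle
      obtain ⟨a, ha⟩ := (V.valuation_le_iff _ _).mp hwy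
      rw [Ideal.submodule_span_eq, Ideal.mem_span_singleton']
      exact ⟨a, Subtype.ext ha⟩
    · rw [Ideal.submodule_span_eq, Ideal.span_singleton_le_iff_mem]; exact hy₀I

end Core

/-- transport of finite-dimensionality along an equality of intermediate fields -/
theorem s18rw_fd_of_eq {K F : Type*} [Field K] [Field F] [Algebra K F]
    (E E' : IntermediateField K F) (h : E = E') [FiniteDimensional E F] :
    FiniteDimensional E' F := by
  subst h; infer_instance

/-- (W) every weak place of a function field in one variable is a (Prelude) place. -/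
theorem s18r_exists_place {K F : Type*} [Field K] [Field F] [Algebra K F] (t : F)
    (ht : Transcendental K t) [FiniteDimensional K⟮t⟯ F]
    (V : ValuationSubring F) (hV : S18IsPlace K V) :
    ∃ P : AlgebraicCurve.Place K F, P.toValuationSubring = V := by
  have key : IsPrincipalIdealRing V := by
    rcases V.mem_or_inv_mem t with h | h
    · exact s18rw_core t ht V hV h
    · have heq : K⟮t⟯ = K⟮t⁻¹⟯ := by
        apply le_antisymm
        · rw [adjoin_simple_le_iff]
          have := inv_mem (mem_adjoin_simple_self K t⁻¹)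
          rwa [inv_inv] at this
        · rw [adjoin_simple_le_iff]
          exact inv_mem (mem_adjoin_simple_self K t)
      have : FiniteDimensional K⟮t⁻¹⟯ F := s18rw_fd_of_eq _ _ heq
      have ht' : Transcendental K t⁻¹ := fun h => ht (IsAlgebraic.inv_iff.mp h)
      exact s18rw_core t⁻¹ ht' V hV h
  exact ⟨⟨V, hV.2, hV.1, key⟩, rfl⟩

end Fermat.Agent.S18
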