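import Mathlib
import Fermat.Agent.S18.RH.Chart
import Fermat.Agent.S18.RH.R
import Fermat.Agent.S18.RH.W
import Fermat.Agent.S24.Degree

/-!
# S18, package RH : the ramification hypotheses for `F_E(N)(y) / E(j)`, `ℓ ≥ 5` (`s18_RH`)

`s18_RH` (statement VERBATIM from `S18/Core/Spec.lean`) = the generic chart theorem `s18r_chart`
for the coordinate `j` (chart at `0`: `S = {0, 1728}`, weights `3, 2`) and for `1/j` (chart at `∞`:
`S' = {0, 1/1728}`, weights `N, 2`), fed with
* (R) `S18/RH/R.lean` (helper1): ramification of `F_ℚ̄(N) / ℚ̄(j)` from S24;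
* (W) `S18/RH/W.lean` (helper1): weak places of `F_ℚ̄(N)` are places;
* `s18r_up_mem` : `F_E(N) → F_ℚ̄(N)` (= `s18d_up_mem`).
-/

set_option autoImplicit false
set_option linter.unusedSectionVars false
set_option linter.unusedVariables false
set_option linter.style.haveILetI false
set_option synthInstance.maxHeartbeats 400000

noncomputable section

namespace Fermat.Agent.S18

open ModularCurve AlgebraicCurve IsLocalRing Polynomial IntermediateField Fermat.Agent.S24

local notation "Qb" => AlgebraicClosure ℚ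

section UpMem

variable (E : IntermediateField ℚ Qb)

theorem s18r_up_jd (d : ℕ) [NeZero d] :
    s18dUp E (qExpand E d (jqModC E)) = coeffEmb Qb (qExpand ℚ d jq) := by
  rw [coeffMap_qExpand, coeffMap_jqModC, coeffEmb, coeffMap_qExpand, ← jqModC_rat, coeffMap_jqModC]

/-- base change of the modular function field along `E ⊆ ℚ̄` (= `s18d_up_mem` of the Spec). -/
theorem s18r_up_mem (N : ℕ) [NeZero N] (x : LaurentSeries E)
    (hx : x ∈ modularFunctionFieldFullC E N) : s18dUp E x ∈ modularFunctionFieldBar N := by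
  let K' : IntermediateField E (LaurentSeries E) :=
    Subfield.toIntermediateField ((modularFunctionFieldBar N).toSubfield.comap (s18dUp E))
      (fun c => by
        show s18dUp E (algebraMap E (LaurentSeries E) c) ∈ modularFunctionFieldBar N
        rw [s18r_up_const]
        exact (modularFunctionFieldBar N).algebraMap_mem _)
  have hle : modularFunctionFieldFullC E N ≤ K' := by
    rw [modularFunctionFieldFullC, adjoin_le_iff]
    rintro z ⟨d, hd0, hd, rfl⟩
    show s18dUp E (qExpand E d (jqModC E)) ∈ modularFunctionFieldBar N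
    rw [s18r_up_jd]
    exact coeffEmb_mem_laurentBaseChange Qb (jqd_mem_full N hd)
  exact hle hx

theorem s18r_up_j : s18dUp E (jqModC E) = coeffEmb Qb jq := by
  have := s18r_up_jd E 1
  rwa [qExpand_one_apply, qExpand_one_apply] at this

end UpMem

section Units

variable (A : ValuationSubring Qb) (E : IntermediateField ℚ Qb) {ℓ : ℕ} [Fact ℓ.Prime]

/-- integers prime to `ℓ` are units of `𝔸 ∩ E`. -/
theorem s18r_isUnit_natCast (hA : A.LiesOverPrime ℓ) (n : ℕ) (hn : ¬ ℓ ∣ n) :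
    IsUnit ((n : ℕ) : s18dVal A E) := by
  have hℓmem := s18d_natCast_mem (ℓ := ℓ) A E hA
  have hcop : Nat.Coprime n ℓ :=
    (Nat.Coprime.symm ((Nat.Prime.coprime_iff_not_dvd Fact.out).mpr hn))
  obtain ⟨a, b, hab⟩ : ∃ a b : ℤ, a * n + b * ℓ = 1 := by
    have := Int.gcd_eq_gcd_ab n ℓ
    rw [Int.gcd_natCast_natCast, hcop.gcd_eq_one] at this
    exact ⟨Int.gcdA n ℓ, Int.gcdB n ℓ, by push_cast at this; linarith⟩
  have h1 : ((a : s18dVal A E)) * (n : s18dVal A E) =
      1 - (b : s18dVal A E) * (ℓ : s18dVal A E) := by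
    have := congrArg (Int.cast : ℤ → s18dVal A E) hab
    push_cast at this
    linear_combination this
  have h2 : IsUnit (1 - (b : s18dVal A E) * (ℓ : s18dVal A E)) := by
    by_contra hnu
    have h3 : (1 - (b : s18dVal A E) * (ℓ : s18dVal A E)) ∈ maximalIdeal (s18dVal A E) := hnu
    have h4 : (b : s18dVal A E) * (ℓ : s18dVal A E) ∈ maximalIdeal (s18dVal A E) :=
      Ideal.mul_mem_left _ _ hℓmem
    have h5 := Ideal.add_mem _ h3 h4
    rw [sub_add_cancel] at h5
    exact (Ideal.ne_top_iff_one _).mp (maximalIdeal.isMaximal _).ne_top h5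
  rw [← h1] at h2
  exact isUnit_of_mul_isUnit_right h2

end Units

section Inv

variable {K F : Type*} [Field K] [Field F] [Algebra K F]

/-- `ord_P (t⁻¹ - b) = ord_P (t - b⁻¹)` when the left-hand side is positive, `b ≠ 0`. -/
theorem s18r_ord_inv_sub (P : Place K F) (t : F) (b : K) (hb : b ≠ 0)
    (hpos : 0 < P.ord (t⁻¹ - algebraMap K F b)) :
    P.ord (t⁻¹ - algebraMap K F b) = P.ord (t - algebraMap K F b⁻¹) := by
  have hb' : algebraMap K F b ≠ 0 := (_root_.map_ne_zero _).mpr hb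
  have ht0 : t ≠ 0 := by
    rintro rfl
    rw [inv_zero, zero_sub, PlaceOrd.ord_neg, PlaceOrd.ord_algebraMap] at hpos
    exact lt_irrefl _ hpos
  have hu0 : t⁻¹ - algebraMap K F b ≠ 0 := by
    intro h; rw [h, Place.ord_zero] at hpos; exact lt_irrefl _ hpos
  set v := P.toValuationSubring.valuation with hv
  have hvK : ∀ c : K, v (algebraMap K F c) ≤ 1 := fun c =>
    (P.toValuationSubring.valuation_le_one_iff _).mpr (P.algebraMap_mem' c)
  have hvb : v (algebraMap K F b) = 1 := s18ta_val_algebraMap v hvK b hb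
  have hvu : v (t⁻¹ - algebraMap K F b) < 1 := (s18r_ord_pos_iff P _ hu0).mp hpos
  have hvt : v t⁻¹ = 1 := by
    have : t⁻¹ = (t⁻¹ - algebraMap K F b) + algebraMap K F b := by ring
    rw [this, v.map_add_eq_of_lt_right (by rw [hvb]; exact hvu), hvb]
  have hordt : P.ord t⁻¹ = 0 := by
    obtain ⟨π, ⟨hπ0, ⟨hπ1, -⟩, -⟩, -, hord⟩ := s18r_place_disc P
    have hvπ0 : v π ≠ 0 := (Valuation.ne_zero_iff _).mpr hπ0
    have h1 := hord t⁻¹ (inv_ne_zero ht0)
    rw [← hv, hvt] at h1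
    have h2 : v π ^ (P.ord t⁻¹) = v π ^ (0 : ℤ) := by rw [zpow_zero]; exact h1.symm
    exact zpow_right_injective₀ (zero_lt_iff.mpr hvπ0) hπ1.ne h2
  have hw0 : t - algebraMap K F b⁻¹ ≠ 0 := by
    intro h
    apply hu0
    have : t = algebraMap K F b⁻¹ := sub_eq_zero.mp h
    rw [this, map_inv₀, inv_inv, sub_self]
  have hfact : t⁻¹ - algebraMap K F b =
      -(algebraMap K F b) * (t⁻¹ * (t - algebraMap K F b⁻¹)) := by
    rw [map_inv₀]
    field_simp
    ring
  rw [hfact, P.ord_mul (neg_ne_zero.mpr hb') (mul_ne_zero (inv_ne_zero ht0) hw0),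
    P.ord_mul (inv_ne_zero ht0) hw0, PlaceOrd.ord_neg, PlaceOrd.ord_algebraMap, hordt]
  ring

end Inv

section Main

variable (A : ValuationSubring Qb) (E : IntermediateField ℚ Qb)

/-- the element `t̄` attached to `j` is `jBar N`. -/
theorem s18r_tbar_eq (N : ℕ) [NeZero N] :
    (⟨s18dUp E (jqModC E), s18r_up_mem E N _ (jqModC_mem_full E N)⟩ : modularFunctionFieldBar N) =
      jBar N := Subtype.ext (s18r_up_j E)

/-- the chart at `0` for the coordinate `j`. -/
theorem s18_RH_zero (N : ℕ) [NeZero N] {ℓ : ℕ} [Fact ℓ.Prime] (hℓN : ¬ ℓ ∣ N)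
    (hA : A.LiesOverPrime ℓ) (hℓ5 : 5 ≤ ℓ) [FiniteDimensional ℚ E]
    [IsDiscreteValuationRing (s18dVal A E)] (ϖ : s18dVal A E) (hϖ : Irreducible ϖ)
    (ζ : E) (hζ : IsPrimitiveRoot ζ (6 * N))
    (p : ℕ) (hp : p.Prime) (hpℓ : p ≠ ℓ)
    (v₁ v₂ : LaurentSeries (s18dVal A E))
    (hv₁ : s18vIncl (s18dVal A E) E v₁ ∈ modularFunctionFieldFullC E N)
    (hv₂ : s18vIncl (s18dVal A E) E v₂ ∈ modularFunctionFieldFullC E N) (hv₂0 : v₂ ≠ 0)
    (y : LaurentSeries E)
    (hy : y ^ p * s18vIncl (s18dVal A E) E v₂ = s18vIncl (s18dVal A E) E v₁)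
    (hdiv : ∀ (h₁ : s18dUp E (s18vIncl (s18dVal A E) E v₁) ∈ modularFunctionFieldBar N)
      (h₂ : s18dUp E (s18vIncl (s18dVal A E) E v₂) ∈ modularFunctionFieldBar N)
      (P : Place (AlgebraicClosure ℚ) (modularFunctionFieldBar N)),
      (p : ℤ) ∣ P.ord ⟨_, h₁⟩ - P.ord ⟨_, h₂⟩) :
    S18Chart (s18dVal A E) E ϖ
        (s18cLift (modularFunctionFieldFullC E N) y ⟨jqModC E, jqModC_mem_full E N⟩)
        ({0, 1728} : Finset (s18dVal A E)) := by
  classical
  have hℓp : ℓ.Prime := Fact.out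
  have h2 : ¬ ℓ ∣ 2 := fun h => by
    have := Nat.le_of_dvd (by norm_num) h; omega
  have h3 : ¬ ℓ ∣ 3 := fun h => by
    have := Nat.le_of_dvd (by norm_num) h; omega
  have h1728 : ¬ ℓ ∣ 1728 := fun h => by
    have e : 1728 = 2 ^ 6 * 3 ^ 3 := by norm_num
    rw [e] at h
    rcases (Nat.Prime.dvd_mul hℓp).mp h with h' | h'
    · exact h2 (hℓp.dvd_of_dvd_pow h')
    · exact h3 (hℓp.dvd_of_dvd_pow h')
  have hu1728 : IsUnit ((1728 : ℕ) : s18dVal A E) := s18r_isUnit_natCast A E hA 1728 h1728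
  have hx₂ : s18vIncl (s18dVal A E) E v₂ ≠ 0 := by
    intro h
    apply hv₂0
    ext k
    have := congrArg (fun s => HahnSeries.coeff s k) h
    simpa using this
  have hW : ∀ W₁ : ValuationSubring (modularFunctionFieldBar N), S18IsPlace Qb W₁ →
      ∃ P : Place Qb (modularFunctionFieldBar N), P.toValuationSubring = W₁ := by
    intro W₁ hW₁
    haveI := finiteDimensional_jBar N
    exact s18r_exists_place (jBar N) (transcendental_jBar N) W₁ hW₁
  have h1728E : algebraMap E Qb ((1728 : s18dVal A E) : E) = 1728 := by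
    have : ((1728 : s18dVal A E) : E) = 1728 := rfl
    rw [this, map_ofNat]
  have hne0 : (1728 : s18dVal A E) ≠ 0 := by
    have : ((1728 : ℕ) : s18dVal A E) ≠ 0 := hu1728.ne_zero
    exact_mod_cast this
  refine s18r_chart A E ϖ hϖ (modularFunctionFieldFullC E N) (modularFunctionFieldBar N)
    (s18r_up_mem E N) hW p hp.ne_zero _ _ hv₁ hv₂ hx₂ y hy (fun P => hdiv _ _ P)
    ⟨jqModC E, jqModC_mem_full E N⟩ ?_ {0, 1728} (fun s => if s = 0 then 3 else 2) ?_ ?_ ?_ ?_
  · -- `t̄ - a ≠ 0`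
    intro a h
    rw [s18r_tbar_eq] at h
    exact transcendental_jBar N (by
      rw [sub_eq_zero.mp h]; exact isAlgebraic_algebraMap a)
  · -- separation
    intro s hs s' hs' hss'
    simp only [Finset.mem_insert, Finset.mem_singleton] at hs hs'
    rcases hs with rfl | rfl <;> rcases hs' with rfl | rfl
    · exact absurd rfl hss'
    · rw [zero_sub]; exact (by exact_mod_cast hu1728 : IsUnit (1728 : s18dVal A E)).neg
    · rw [sub_zero]; exact_mod_cast hu1728
    · exact absurd rfl hss'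
  · -- weights
    intro s hs
    simp only [Finset.mem_insert, Finset.mem_singleton] at hs
    rcases hs with rfl | rfl
    · rw [if_pos rfl]
      refine ⟨s18r_isUnit_natCast A E hA 3 h3, ζ ^ (2 * N), ?_⟩
      exact hζ.pow (Nat.mul_pos (by norm_num) (NeZero.pos N)) (by ring)
    · rw [if_neg hne0]
      refine ⟨s18r_isUnit_natCast A E hA 2 h2, ζ ^ (3 * N), ?_⟩
      exact hζ.pow (Nat.mul_pos (by norm_num) (NeZero.pos N)) (by ring)
  · -- generic points
    intro P a ha hpos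
    rw [s18r_tbar_eq] at hpos ⊢
    have ha0 : a ≠ 0 := by
      have := ha 0 (by simp)
      simpa using this
    have ha1728 : a ≠ 1728 := by
      have := ha 1728 (by simp)
      rwa [h1728E] at this
    exact s18r_ord_eq_one N a ha0 ha1728 P hpos
  · -- special points
    intro s hs P hpos
    simp only [Finset.mem_insert, Finset.mem_singleton] at hs
    rw [s18r_tbar_eq] at hpos ⊢
    rcases hs with rfl | rfl
    · rw [if_pos rfl]
      have e : algebraMap Qb (modularFunctionFieldBar N)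
          (algebraMap E Qb ((0 : s18dVal A E) : E)) = 0 := by simp
      rw [e, sub_zero] at hpos ⊢
      exact s18r_ord_dvd_zero N P hpos
    · rw [if_neg hne0]
      rw [h1728E] at hpos ⊢
      exact s18r_ord_dvd_1728 N P hpos

/-- the chart at `∞` for the coordinate `j`. -/
theorem s18_RH_infty (N : ℕ) [NeZero N] {ℓ : ℕ} [Fact ℓ.Prime] (hℓN : ¬ ℓ ∣ N)
    (hA : A.LiesOverPrime ℓ) (hℓ5 : 5 ≤ ℓ) [FiniteDimensional ℚ E]
    [IsDiscreteValuationRing (s18dVal A E)] (ϖ : s18dVal A E) (hϖ : Irreducible ϖ)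
    (ζ : E) (hζ : IsPrimitiveRoot ζ (6 * N))
    (p : ℕ) (hp : p.Prime) (hpℓ : p ≠ ℓ)
    (v₁ v₂ : LaurentSeries (s18dVal A E))
    (hv₁ : s18vIncl (s18dVal A E) E v₁ ∈ modularFunctionFieldFullC E N)
    (hv₂ : s18vIncl (s18dVal A E) E v₂ ∈ modularFunctionFieldFullC E N) (hv₂0 : v₂ ≠ 0)
    (y : LaurentSeries E)
    (hy : y ^ p * s18vIncl (s18dVal A E) E v₂ = s18vIncl (s18dVal A E) E v₁)
    (hdiv : ∀ (h₁ : s18dUp E (s18vIncl (s18dVal A E) E v₁) ∈ modularFunctionFieldBar N)
      (h₂ : s18dUp E (s18vIncl (s18dVal A E) E v₂) ∈ modularFunctionFieldBar N)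
      (P : Place (AlgebraicClosure ℚ) (modularFunctionFieldBar N)),
      (p : ℤ) ∣ P.ord ⟨_, h₁⟩ - P.ord ⟨_, h₂⟩) :
    ∃ S' : Finset (s18dVal A E), S18Chart (s18dVal A E) E ϖ
        (s18cLift (modularFunctionFieldFullC E N) y ⟨jqModC E, jqModC_mem_full E N⟩)⁻¹ S' := by
  classical
  have hℓp : ℓ.Prime := Fact.out
  have h2 : ¬ ℓ ∣ 2 := fun h => by
    have := Nat.le_of_dvd (by norm_num) h; omega
  have h3 : ¬ ℓ ∣ 3 := fun h => by
    have := Nat.le_of_dvd (by norm_num) h; omega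
  have h1728 : ¬ ℓ ∣ 1728 := fun h => by
    have e : 1728 = 2 ^ 6 * 3 ^ 3 := by norm_num
    rw [e] at h
    rcases (Nat.Prime.dvd_mul hℓp).mp h with h' | h'
    · exact h2 (hℓp.dvd_of_dvd_pow h')
    · exact h3 (hℓp.dvd_of_dvd_pow h')
  have hu1728 : IsUnit ((1728 : ℕ) : s18dVal A E) := s18r_isUnit_natCast A E hA 1728 h1728
  have hx₂ : s18vIncl (s18dVal A E) E v₂ ≠ 0 := by
    intro h
    apply hv₂0
    ext k
    have := congrArg (fun s => HahnSeries.coeff s k) h
    simpa using this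
  have hW : ∀ W₁ : ValuationSubring (modularFunctionFieldBar N), S18IsPlace Qb W₁ →
      ∃ P : Place Qb (modularFunctionFieldBar N), P.toValuationSubring = W₁ := by
    intro W₁ hW₁
    haveI := finiteDimensional_jBar N
    exact s18r_exists_place (jBar N) (transcendental_jBar N) W₁ hW₁
  -- the point `1/1728`
  set u : s18dVal A E := ((hu1728.unit⁻¹ : (s18dVal A E)ˣ) : s18dVal A E) with hu
  have huu : IsUnit u := Units.isUnit _
  have hu0 : u ≠ 0 := huu.ne_zero
  have huE : algebraMap E Qb (u : E) = (1728 : Qb)⁻¹ := by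
    have h1 : u * ((1728 : ℕ) : s18dVal A E) = 1 := by
      rw [hu]
      have := hu1728.unit.inv_mul
      rwa [IsUnit.unit_spec] at this
    have h1' : u * (1728 : s18dVal A E) = 1 := by exact_mod_cast h1
    have h2 : (u : E) * (1728 : E) = 1 := congrArg Subtype.val h1'
    have h3 : algebraMap E Qb (u : E) * 1728 = 1 := by
      have := congrArg (algebraMap E Qb) h2
      rwa [map_mul, map_ofNat, map_one] at this
    exact eq_inv_of_mul_eq_one_left h3
  -- the coordinate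
  set t : modularFunctionFieldFullC E N := ⟨jqModC E, jqModC_mem_full E N⟩ with ht
  have hlift : s18cLift (modularFunctionFieldFullC E N) y t⁻¹ =
      (s18cLift (modularFunctionFieldFullC E N) y t)⁻¹ := Subtype.ext rfl
  have htb : (⟨s18dUp E ((t⁻¹ : modularFunctionFieldFullC E N) : LaurentSeries E),
      s18r_up_mem E N _ (t⁻¹ : modularFunctionFieldFullC E N).2⟩ : modularFunctionFieldBar N) =
      (jBar N)⁻¹ := by
    apply Subtype.ext
    show s18dUp E ((t : LaurentSeries E)⁻¹) = ((jBar N : modularFunctionFieldBar N) :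
      LaurentSeries Qb)⁻¹
    rw [map_inv₀, coe_jBar, ← s18r_up_j E]
  refine ⟨{0, u}, ?_⟩
  rw [← hlift]
  refine s18r_chart A E ϖ hϖ (modularFunctionFieldFullC E N) (modularFunctionFieldBar N)
    (s18r_up_mem E N) hW p hp.ne_zero _ _ hv₁ hv₂ hx₂ y hy (fun P => hdiv _ _ P)
    t⁻¹ ?_ {0, u} (fun s => if s = 0 then N else 2) ?_ ?_ ?_ ?_
  · -- `t̄ - a ≠ 0`
    intro a h
    rw [htb] at h
    exact transcendental_inv (transcendental_jBar N) (by
      rw [sub_eq_zero.mp h]; exact isAlgebraic_algebraMap a)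
  · -- separation
    intro s hs s' hs' hss'
    simp only [Finset.mem_insert, Finset.mem_singleton] at hs hs'
    rcases hs with rfl | rfl <;> rcases hs' with rfl | rfl
    · exact absurd rfl hss'
    · rw [zero_sub]; exact huu.neg
    · rw [sub_zero]; exact huu
    · exact absurd rfl hss'
  · -- weights
    intro s hs
    simp only [Finset.mem_insert, Finset.mem_singleton] at hs
    rcases hs with rfl | rfl
    · rw [if_pos rfl]
      refine ⟨s18r_isUnit_natCast A E hA N hℓN, ζ ^ 6, ?_⟩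
      exact hζ.pow (Nat.mul_pos (by norm_num) (NeZero.pos N)) rfl
    · rw [if_neg hu0]
      refine ⟨s18r_isUnit_natCast A E hA 2 h2, ζ ^ (3 * N), ?_⟩
      exact hζ.pow (Nat.mul_pos (by norm_num) (NeZero.pos N)) (by ring)
  · -- generic points
    intro P a ha hpos
    rw [htb] at hpos ⊢
    have ha0 : a ≠ 0 := by
      have := ha 0 (by simp)
      simpa using this
    have hau : a ≠ (1728 : Qb)⁻¹ := by
      have := ha u (by simp)
      rwa [huE] at this
    have heq := s18r_ord_inv_sub P (jBar N) a ha0 hpos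
    rw [heq] at hpos ⊢
    refine s18r_ord_eq_one N a⁻¹ (inv_ne_zero ha0) (fun h => hau ?_) P hpos
    rw [← h, inv_inv]
  · -- special points
    intro s hs P hpos
    simp only [Finset.mem_insert, Finset.mem_singleton] at hs
    rw [htb] at hpos ⊢
    rcases hs with rfl | rfl
    · rw [if_pos rfl]
      have e : algebraMap Qb (modularFunctionFieldBar N)
          (algebraMap E Qb ((0 : s18dVal A E) : E)) = 0 := by simp
      rw [e, sub_zero, Place.ord_inv] at hpos ⊢
      have hneg : P.ord (jBar N) < 0 := by omega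
      exact (neg_dvd).mpr (s18r_ord_dvd_cusp N P hneg)
    · rw [if_neg hu0]
      rw [huE] at hpos ⊢
      have h1728' : ((1728 : Qb)⁻¹) ≠ 0 := inv_ne_zero (by norm_num)
      have heq := s18r_ord_inv_sub P (jBar N) _ h1728' hpos
      rw [heq, inv_inv] at hpos ⊢
      exact s18r_ord_dvd_1728 N P hpos


/-- (packages R + U + D) THE RAMIFICATION HYPOTHESES for `F_E(N)(y) / E(j)`, `ℓ ≥ 5`. -/
theorem s18_RH (N : ℕ) [NeZero N] {ℓ : ℕ} [Fact ℓ.Prime] (hℓN : ¬ ℓ ∣ N)
    (hA : A.LiesOverPrime ℓ) (hℓ5 : 5 ≤ ℓ) [FiniteDimensional ℚ E]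
    [IsDiscreteValuationRing (s18dVal A E)] (ϖ : s18dVal A E) (hϖ : Irreducible ϖ)
    (ζ : E) (hζ : IsPrimitiveRoot ζ (6 * N))
    (p : ℕ) (hp : p.Prime) (hpℓ : p ≠ ℓ)
    (v₁ v₂ : LaurentSeries (s18dVal A E))
    (hv₁ : s18vIncl (s18dVal A E) E v₁ ∈ modularFunctionFieldFullC E N)
    (hv₂ : s18vIncl (s18dVal A E) E v₂ ∈ modularFunctionFieldFullC E N) (hv₂0 : v₂ ≠ 0)
    (y : LaurentSeries E)
    (hy : y ^ p * s18vIncl (s18dVal A E) E v₂ = s18vIncl (s18dVal A E) E v₁)
    (hdiv : ∀ (h₁ : s18dUp E (s18vIncl (s18dVal A E) E v₁) ∈ modularFunctionFieldBar N)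
      (h₂ : s18dUp E (s18vIncl (s18dVal A E) E v₂) ∈ modularFunctionFieldBar N)
      (P : Place (AlgebraicClosure ℚ) (modularFunctionFieldBar N)),
      (p : ℤ) ∣ P.ord ⟨_, h₁⟩ - P.ord ⟨_, h₂⟩) :
    ∃ S S' : Finset (s18dVal A E),
      S18Chart (s18dVal A E) E ϖ
        (s18cLift (modularFunctionFieldFullC E N) y ⟨jqModC E, jqModC_mem_full E N⟩) S ∧
      S18Chart (s18dVal A E) E ϖ
        (s18cLift (modularFunctionFieldFullC E N) y ⟨jqModC E, jqModC_mem_full E N⟩)⁻¹ S' := by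
  obtain ⟨S', hS'⟩ := s18_RH_infty A E N hℓN hA hℓ5 ϖ hϖ ζ hζ p hp hpℓ v₁ v₂ hv₁ hv₂ hv₂0 y hy hdiv
  exact ⟨{0, 1728}, S',
    s18_RH_zero A E N hℓN hA hℓ5 ϖ hϖ ζ hζ p hp hpℓ v₁ v₂ hv₁ hv₂ hv₂0 y hy hdiv, hS'⟩

end Main

end Fermat.Agent.S18
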