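import Mathlib
import Fermat.Agent.S18.RH.Core

/-!
# S18, package RH : restriction of places along an algebraic extension of function fields

`s18r_place_restrict` : `F₁ / F₀` algebraic, both over `K`; if weak places of `F₀ / K` are places
(`hW`, leaf (W)), every place `P'` of `F₁` restricts to a place `P` of `F₀`, and
`ord_{P'} x = r · ord_P x` for `x ∈ F₀` (`r` = ramification index).  Used to transport `hdiv` from
level `N` to level `a N` in `s18_RH_small`.
-/

set_option autoImplicit false
set_option linter.unusedSectionVars false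

noncomputable section

namespace Fermat.Agent.S18

open Polynomial IntermediateField AlgebraicCurve

theorem s18r_place_restrict {K F₀ F₁ : Type*} [Field K] [Field F₀] [Field F₁] [Algebra K F₀]
    [Algebra K F₁] [Algebra F₀ F₁] [IsScalarTower K F₀ F₁] [Algebra.IsAlgebraic F₀ F₁]
    (hW : ∀ W₁ : ValuationSubring F₀, S18IsPlace K W₁ →
      ∃ P : Place K F₀, P.toValuationSubring = W₁)
    (P' : Place K F₁) :
    ∃ (P : Place K F₀) (r : ℕ), 0 < r ∧
      P.toValuationSubring = P'.toValuationSubring.comap (algebraMap F₀ F₁) ∧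
      ∀ x : F₀, P'.ord (algebraMap F₀ F₁ x) = r * P.ord x := by
  set φ := algebraMap F₀ F₁ with hφ
  set W := P'.toValuationSubring with hW'
  obtain ⟨π', hπ'disc, -, hπ'ord⟩ := s18r_place_disc P'
  set V := W.comap φ with hV
  have hVplace : S18IsPlace K V := by
    refine ⟨fun htop => P'.ne_top' (eq_top_iff.mpr fun x _ => ?_), fun c => ?_⟩
    · obtain ⟨Q, hQm, hQx⟩ := (Algebra.IsAlgebraic.isAlgebraic (R := F₀) x).isIntegral
      refine s18r_mem_of_monic_root W φ (fun c => ?_) x Q hQm hQx
      have : c ∈ V := by rw [htop]; exact ValuationSubring.mem_top _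
      exact this
    · show φ (algebraMap K F₀ c) ∈ W
      rw [hφ, ← IsScalarTower.algebraMap_apply]
      exact P'.algebraMap_mem' c
  obtain ⟨P, hP⟩ := hW V hVplace
  obtain ⟨τ, r, hr0, hτdisc, hτr, hkey⟩ := s18r_descend φ W π' hπ'disc hVplace.1
  obtain ⟨πP, hπPdisc, -, hπPord⟩ := s18r_place_disc P
  rw [hP] at hπPdisc hπPord
  -- the two uniformisers of `V` have the same value
  have hvτ : V.valuation τ = V.valuation πP :=
    le_antisymm (hπPdisc.2.1.2 τ hτdisc.2.1.1) (hτdisc.2.1.2 πP hπPdisc.2.1.1)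
  have hvπ0 : V.valuation πP ≠ 0 := (Valuation.ne_zero_iff _).mpr hπPdisc.1
  have hwπ0 : W.valuation π' ≠ 0 := (Valuation.ne_zero_iff _).mpr hπ'disc.1
  refine ⟨P, r, hr0, hP, fun x => ?_⟩
  rcases eq_or_ne x 0 with rfl | hx0
  · rw [map_zero, Place.ord_zero, Place.ord_zero, mul_zero]
  obtain ⟨k, hk, hk'⟩ := hkey x hx0
  have h1 : k = P.ord x := by
    have : V.valuation πP ^ k = V.valuation πP ^ (P.ord x) := by
      rw [← hvτ, ← hk', hvτ]; exact hπPord x hx0
    exact zpow_right_injective₀ (zero_lt_iff.mpr hvπ0) hπPdisc.2.1.1.ne this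
  have h2 : P'.ord (φ x) = (r : ℤ) * k := by
    have : W.valuation π' ^ (P'.ord (φ x)) = W.valuation π' ^ ((r : ℤ) * k) := by
      rw [← hk]; exact (hπ'ord (φ x) ((map_ne_zero φ).mpr hx0)).symm
    exact zpow_right_injective₀ (zero_lt_iff.mpr hwπ0) hπ'disc.2.1.1.ne this
  rw [h2, h1]

end Fermat.Agent.S18
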