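import Mathlib
import Fermat.Agent.S24.PlaceOrd

/-!
# S18, package RH, small primes : abstract transfer of ramification along `j = R(h)`

Setting: `F / K` a function field (any `K`-field with Prelude places), `P` a place, `h j : F` with
`j · h ^ k = R(h)`.  From the ramification of `F / K(j)` at `P` (hypotheses on `ord_P (j - c)`) we
deduce the ramification of `F / K(h)` at `P`.

* `s18rs_ord_add_of_lt` : strict ultrametric inequality for `Place.ord`;
* `s18rs_ord_aeval` : `ord_P (T(h)) = 0` if `ord_P (h - b) > 0`, `T(b) ≠ 0`;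
* `s18rs_transfer` : `(j - c) h ^ k = (h - b) ^ m T(h)`, `T(b) ≠ 0`, `b ≠ 0`
  `⟹ ord_P (j - c) = m · ord_P (h - b)`;
* `s18rs_generic` : `ord_P (h - b) ≤ ord_P (j - R(b)/b^k)`;
* `s18rs_pack_two`, `s18rs_pack_three` : the ramification of `h` for
  `j h² = (h + 256)³`, resp. `j h³ = (h + 27)(h + 243)³`.
-/

set_option autoImplicit false
set_option linter.unusedSectionVars false
set_option linter.unusedVariables false

noncomputable section

namespace Fermat.Agent.S18

open AlgebraicCurve Polynomial Fermat.Agent.S24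

section Ord

variable {K F : Type*} [Field K] [Field F] [Algebra K F] (P : Place K F)

/-- strict ultrametric inequality. -/
theorem s18rs_ord_add_of_lt {f g : F} (hf : f ≠ 0) (hg : g = 0 ∨ P.ord f < P.ord g) :
    P.ord (f + g) = P.ord f := by
  rcases hg with rfl | hlt
  · rw [add_zero]
  have hg0 : g ≠ 0 ∨ g = 0 := (em (g = 0)).symm
  have hfg : f + g ≠ 0 := by
    intro h
    have : f = -g := eq_neg_of_add_eq_zero_left h
    rw [this, PlaceOrd.ord_neg] at hlt
    exact lt_irrefl _ hlt
  have h1 := PlaceOrd.min_le_ord_add P hfg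
  have h2 : min (P.ord (f + g)) (P.ord (-g)) ≤ P.ord ((f + g) + -g) :=
    PlaceOrd.min_le_ord_add P (by rwa [add_neg_cancel_right])
  rw [add_neg_cancel_right, PlaceOrd.ord_neg] at h2
  rw [min_eq_left hlt.le] at h1
  rcases min_le_iff.mp h2 with h3 | h3
  · exact le_antisymm h3 h1
  · exact absurd h3 (not_le.mpr hlt)

theorem s18rs_ord_pow (f : F) (n : ℕ) : P.ord (f ^ n) = n * P.ord f := by
  rw [← zpow_natCast, Place.ord_zpow]

/-- constants have order `0` and are non-zero if non-zero. -/
theorem s18rs_const_ne_zero {c : K} (hc : c ≠ 0) : algebraMap K F c ≠ 0 :=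
  (_root_.map_ne_zero _).mpr hc

/-- if `ord_P (h - b) > 0` then `ord_P (h - b') = 0` and `h - b' ≠ 0` for `b' ≠ b`. -/
theorem s18rs_ord_sub_const (h : F) (b b' : K) (hbb' : b ≠ b')
    (hpos : 0 < P.ord (h - algebraMap K F b)) :
    h - algebraMap K F b' ≠ 0 ∧ P.ord (h - algebraMap K F b') = 0 := by
  have hc : algebraMap K F (b - b') ≠ 0 := s18rs_const_ne_zero (sub_ne_zero.mpr hbb')
  have e : h - algebraMap K F b' = algebraMap K F (b - b') + (h - algebraMap K F b) := by
    rw [map_sub]; ring
  have hord : P.ord (h - algebraMap K F b') = 0 := by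
    rw [e, s18rs_ord_add_of_lt P hc (Or.inr (by rw [PlaceOrd.ord_algebraMap]; exact hpos)),
      PlaceOrd.ord_algebraMap]
  refine ⟨fun h0 => ?_, hord⟩
  -- `h = b'` would give `ord (h - b) = ord (b' - b) = 0`
  have : h - algebraMap K F b = algebraMap K F (b' - b) := by
    rw [map_sub, ← sub_eq_zero.mp h0]
  rw [this, PlaceOrd.ord_algebraMap] at hpos
  exact lt_irrefl _ hpos

/-- `h ∈ 𝒪_P` if `ord_P (h - b) > 0`. -/
theorem s18rs_mem_of_pos (h : F) (b : K) (hpos : 0 < P.ord (h - algebraMap K F b)) :
    h ∈ P.toValuationSubring := by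
  have e : h = (h - algebraMap K F b) + algebraMap K F b := by ring
  rw [e]
  exact P.toValuationSubring.add_mem _ _ (PlaceOrd.mem_of_ord_nonneg P hpos.le)
    (P.algebraMap_mem' b)

/-- polynomials with constant coefficients preserve `𝒪_P`. -/
theorem s18rs_aeval_mem (h : F) (hh : h ∈ P.toValuationSubring) (T : K[X]) :
    aeval h T ∈ P.toValuationSubring := by
  induction T using Polynomial.induction_on with
  | C a => rw [aeval_C]; exact P.algebraMap_mem' a
  | add p q hp hq => rw [map_add]; exact P.toValuationSubring.add_mem _ _ hp hq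
  | monomial n a ih =>
    rw [map_mul, aeval_C, map_pow, aeval_X]
    exact P.toValuationSubring.mul_mem _ _ (P.algebraMap_mem' a) (pow_mem hh _)

/-- `T(h)` is a unit at `P` if `ord_P (h - b) > 0` and `T(b) ≠ 0`. -/
theorem s18rs_ord_aeval (h : F) (b : K) (hpos : 0 < P.ord (h - algebraMap K F b)) (T : K[X])
    (hT : T.eval b ≠ 0) : aeval h T ≠ 0 ∧ P.ord (aeval h T) = 0 := by
  have hroot : (T - C (T.eval b)).IsRoot b := by
    rw [IsRoot.def, eval_sub, eval_C, sub_self]
  obtain ⟨q, hq⟩ := dvd_iff_isRoot.mpr hroot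
  have e : aeval h T = algebraMap K F (T.eval b) + (h - algebraMap K F b) * aeval h q := by
    have := congrArg (aeval h) hq
    rw [map_sub, map_mul, map_sub, aeval_X, aeval_C, aeval_C] at this
    rw [← this]; ring
  have hc : algebraMap K F (T.eval b) ≠ 0 := s18rs_const_ne_zero hT
  have hhb : h - algebraMap K F b ≠ 0 := by
    intro h0; rw [h0, Place.ord_zero] at hpos; exact lt_irrefl _ hpos
  have hstep : (h - algebraMap K F b) * aeval h q = 0 ∨
      P.ord (algebraMap K F (T.eval b)) < P.ord ((h - algebraMap K F b) * aeval h q) := by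
    by_cases hq0 : aeval h q = 0
    · left; rw [hq0, mul_zero]
    · right
      rw [PlaceOrd.ord_algebraMap, P.ord_mul hhb hq0]
      have := PlaceOrd.ord_nonneg_of_mem P
        (s18rs_aeval_mem P h (s18rs_mem_of_pos P h b hpos) q)
      omega
  have hord : P.ord (aeval h T) = 0 := by
    rw [e, s18rs_ord_add_of_lt P hc hstep, PlaceOrd.ord_algebraMap]
  refine ⟨fun h0 => ?_, hord⟩
  rcases hstep with h1 | h1
  · rw [e, h1, add_zero] at h0; exact hc h0
  · have h2 : (h - algebraMap K F b) * aeval h q = -algebraMap K F (T.eval b) := by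
      rw [e] at h0; exact (neg_eq_of_add_eq_zero_right h0).symm ▸ rfl
    rw [h2, PlaceOrd.ord_neg] at h1
    exact lt_irrefl _ h1

/-- TRANSFER at a point `b ≠ 0` of multiplicity `m`. -/
theorem s18rs_transfer (h j : F) (k m : ℕ) (b c : K) (T : K[X]) (hb : b ≠ 0)
    (hT : T.eval b ≠ 0)
    (hid : (j - algebraMap K F c) * h ^ k = (h - algebraMap K F b) ^ m * aeval h T)
    (hpos : 0 < P.ord (h - algebraMap K F b)) :
    P.ord (j - algebraMap K F c) = m * P.ord (h - algebraMap K F b) := by
  obtain ⟨hT0, hTord⟩ := s18rs_ord_aeval P h b hpos T hT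
  have hh := s18rs_ord_sub_const P h b 0 hb hpos
  rw [map_zero, sub_zero] at hh
  obtain ⟨hh0, hhord⟩ := hh
  have hhb : h - algebraMap K F b ≠ 0 := by
    intro h0; rw [h0, Place.ord_zero] at hpos; exact lt_irrefl _ hpos
  have hrhs : (h - algebraMap K F b) ^ m * aeval h T ≠ 0 := mul_ne_zero (pow_ne_zero _ hhb) hT0
  have hjc : j - algebraMap K F c ≠ 0 := by
    intro h0; rw [h0, zero_mul] at hid; exact hrhs hid.symm
  have := congrArg P.ord hid
  rw [P.ord_mul hjc (pow_ne_zero _ hh0), P.ord_mul (pow_ne_zero _ hhb) hT0, hTord,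
    s18rs_ord_pow, s18rs_ord_pow, hhord] at this
  linarith

/-- GENERIC COMPARISON: `ord_P (h - b) ≤ ord_P (j - R(b)/b^k)`. -/
theorem s18rs_generic (h j : F) (k : ℕ) (R : K[X]) (hid : j * h ^ k = aeval h R) (b : K)
    (hb : b ≠ 0) (hpos : 0 < P.ord (h - algebraMap K F b))
    (hjc : j - algebraMap K F (R.eval b / b ^ k) ≠ 0) :
    P.ord (h - algebraMap K F b) ≤ P.ord (j - algebraMap K F (R.eval b / b ^ k)) := by
  have hbk : b ^ k ≠ 0 := pow_ne_zero _ hb
  have hroot : (C (b ^ k) * R - C (R.eval b) * X ^ k).IsRoot b := by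
    rw [IsRoot.def, eval_sub, eval_mul, eval_mul, eval_C, eval_C, eval_pow, eval_X]; ring
  obtain ⟨G, hG⟩ := dvd_iff_isRoot.mpr hroot
  have hh := s18rs_ord_sub_const P h b 0 hb hpos
  rw [map_zero, sub_zero] at hh
  obtain ⟨hh0, hhord⟩ := hh
  have hhb : h - algebraMap K F b ≠ 0 := by
    intro h0; rw [h0, Place.ord_zero] at hpos; exact lt_irrefl _ hpos
  have e : algebraMap K F (b ^ k) * (j - algebraMap K F (R.eval b / b ^ k)) * h ^ k =
      (h - algebraMap K F b) * aeval h G := by
    have := congrArg (aeval h) hG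
    simp only [map_sub, map_mul, map_pow, aeval_X, aeval_C] at this
    rw [← hid] at this
    rw [← this, map_pow]
    have h3 : algebraMap K F b ^ k * algebraMap K F (R.eval b / b ^ k) =
        algebraMap K F (R.eval b) := by
      rw [← map_pow, ← map_mul, mul_div_cancel₀ _ hbk]
    linear_combination (-(h ^ k)) * h3
  have hlhs : algebraMap K F (b ^ k) * (j - algebraMap K F (R.eval b / b ^ k)) * h ^ k ≠ 0 :=
    mul_ne_zero (mul_ne_zero (s18rs_const_ne_zero hbk) hjc) (pow_ne_zero _ hh0)
  have hG0 : aeval h G ≠ 0 := by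
    intro h0; rw [h0, mul_zero] at e; exact hlhs e
  have := congrArg P.ord e
  rw [P.ord_mul (mul_ne_zero (s18rs_const_ne_zero hbk) hjc) (pow_ne_zero _ hh0),
    P.ord_mul (s18rs_const_ne_zero hbk) hjc, PlaceOrd.ord_algebraMap, P.ord_mul hhb hG0,
    s18rs_ord_pow, hhord] at this
  have hGnn := PlaceOrd.ord_nonneg_of_mem P
    (s18rs_aeval_mem P h (s18rs_mem_of_pos P h b hpos) G)
  linarith

/-- `3 x ∣ 3`, `x > 0` gives `x = 1` (and similar). -/
theorem s18rs_eq_one_of_mul_dvd {m x : ℤ} (hm : m ≠ 0) (hx : 0 < x) (h : m * x ∣ m) : x = 1 := by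
  have h1 : m * x ∣ m * 1 := by rwa [mul_one]
  exact Int.eq_one_of_dvd_one hx.le ((mul_dvd_mul_iff_left hm).mp h1)

end Ord

section PackTwo

variable {K F : Type*} [Field K] [CharZero K] [Field F] [Algebra K F] (P : Place K F)

/-- THE RAMIFICATION OF `h₂` from that of `j`: `j h² = (h + 256)³`. -/
theorem s18rs_pack_two (h j : F) (hid : j * h ^ 2 = (h + 256) ^ 3)
    (htr : ∀ c : K, j - algebraMap K F c ≠ 0) (M : ℕ)
    (h0 : 0 < P.ord j → P.ord j ∣ (3 : ℤ))
    (h1728 : 0 < P.ord (j - algebraMap K F 1728) → P.ord (j - algebraMap K F 1728) ∣ (2 : ℤ))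
    (hgen : ∀ c : K, c ≠ 0 → c ≠ 1728 → 0 < P.ord (j - algebraMap K F c) →
      P.ord (j - algebraMap K F c) = 1)
    (hcusp : P.ord j < 0 → P.ord j ∣ (M : ℤ)) :
    (∀ b : K, b ≠ 0 → b ≠ -64 → 0 < P.ord (h - algebraMap K F b) →
      P.ord (h - algebraMap K F b) = 1) ∧
    (0 < P.ord (h - algebraMap K F (-64)) → P.ord (h - algebraMap K F (-64)) ∣ (2 : ℤ)) ∧
    (0 < P.ord h → P.ord h ∣ (M : ℤ)) ∧ (P.ord h < 0 → P.ord h ∣ (M : ℤ)) := by
  set R : K[X] := (X + C 256) ^ 3 with hR
  have hidR : j * h ^ 2 = aeval h R := by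
    rw [hid, hR]; simp [map_ofNat]
  have hj0 : j - algebraMap K F 0 = j := by rw [map_zero, sub_zero]
  refine ⟨fun b hb hb64 hpos => ?_, fun hpos => ?_, fun hpos => ?_, fun hneg => ?_⟩
  · -- generic points
    have hRb : R.eval b = (b + 256) ^ 3 := by rw [hR]; simp
    by_cases hc0 : R.eval b / b ^ 2 = 0
    · -- `b = -256`
      have hb256 : b = -256 := by
        rw [div_eq_zero_iff, hRb] at hc0
        rcases hc0 with h1 | h1
        · have := pow_eq_zero_iff (n := 3) (by norm_num) |>.mp h1
          linear_combination this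
        · exact absurd (pow_eq_zero_iff (n := 2) (by norm_num) |>.mp h1) hb
      subst hb256
      have key := s18rs_transfer P h j 2 3 (-256) 0 1 hb (by simp)
        (by rw [hj0, hid]; simp [map_ofNat]) hpos
      rw [hj0] at key
      have hjpos : 0 < P.ord j := by rw [key]; positivity
      have := h0 hjpos
      rw [key] at this
      exact s18rs_eq_one_of_mul_dvd (m := 3) (by norm_num) hpos (by exact_mod_cast this)
    by_cases hc1 : R.eval b / b ^ 2 = 1728
    · -- `b = 512`
      have hb512 : b = 512 := by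
        rw [div_eq_iff (pow_ne_zero _ hb), hRb] at hc1
        have h2 : (b + 64) * (b - 512) ^ 2 = 0 := by linear_combination hc1
        rcases mul_eq_zero.mp h2 with h3 | h3
        · exact absurd (by linear_combination h3) hb64
        · have := pow_eq_zero_iff (n := 2) (by norm_num) |>.mp h3
          linear_combination this
      subst hb512
      have key := s18rs_transfer P h j 2 2 512 1728 (X + C 64) hb (by simp; norm_num)
        (by simp only [map_add, aeval_X, map_ofNat]; linear_combination hid) hpos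
      have hjpos : 0 < P.ord (j - algebraMap K F 1728) := by rw [key]; positivity
      have := h1728 hjpos
      rw [key] at this
      exact s18rs_eq_one_of_mul_dvd (m := 2) (by norm_num) hpos (by exact_mod_cast this)
    · have hle := s18rs_generic P h j 2 R hidR b hb hpos (htr _)
      have h1 := hgen _ hc0 hc1 (lt_of_lt_of_le hpos hle)
      omega
  · -- `h = -64`
    have key := s18rs_transfer P h j 2 1 (-64) 1728 ((X - C 512) ^ 2) (by norm_num)
      (by simp; norm_num)
      (by simp only [map_pow, map_sub, map_neg, aeval_X, map_ofNat]; linear_combination hid)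
      hpos
    have hjpos : 0 < P.ord (j - algebraMap K F 1728) := by rw [key]; simpa using hpos
    have := h1728 hjpos
    rw [key] at this
    simpa using this
  · -- `h = 0`
    have hpos' : 0 < P.ord (h - algebraMap K F 0) := by rwa [map_zero, sub_zero]
    obtain ⟨hR0, hRord⟩ := s18rs_ord_aeval P h 0 hpos' R (by rw [hR]; simp)
    have hh0 : h ≠ 0 := by
      intro h0'; rw [h0', Place.ord_zero] at hpos; exact lt_irrefl _ hpos
    rw [← hidR] at hR0 hRord
    have hjne : j ≠ 0 := left_ne_zero_of_mul hR0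
    rw [P.ord_mul hjne (pow_ne_zero _ hh0), s18rs_ord_pow] at hRord
    have hj : P.ord j = -2 * P.ord h := by push_cast at hRord; linarith
    have := hcusp (by rw [hj]; linarith)
    rw [hj] at this
    exact dvd_trans (Dvd.intro_left _ rfl) this
  · -- `h = ∞`
    have hh0 : h ≠ 0 := by
      intro h0'; rw [h0', Place.ord_zero] at hneg; exact lt_irrefl _ hneg
    have h1 : P.ord (h + 256) = P.ord h := by
      rw [← map_ofNat (algebraMap K F) 256]
      exact s18rs_ord_add_of_lt P hh0 (Or.inr (by rw [PlaceOrd.ord_algebraMap]; exact hneg))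
    have h2 : h + 256 ≠ 0 := by
      intro h0'; rw [h0', Place.ord_zero] at h1; omega
    have hR0 : j * h ^ 2 ≠ 0 := by rw [hid]; exact pow_ne_zero _ h2
    have hjne : j ≠ 0 := left_ne_zero_of_mul hR0
    have := congrArg P.ord hid
    rw [P.ord_mul hjne (pow_ne_zero _ hh0), s18rs_ord_pow, s18rs_ord_pow, h1] at this
    have hj : P.ord j = P.ord h := by push_cast at this; linarith
    rw [← hj]
    exact hcusp (by rw [hj]; exact hneg)

/-- `h₂` is not constant. -/
theorem s18rs_ne_two (h j : F) (hid : j * h ^ 2 = (h + 256) ^ 3)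
    (htr : ∀ c : K, j - algebraMap K F c ≠ 0) (c : K) : h - algebraMap K F c ≠ 0 := by
  intro h0
  have hc : h = algebraMap K F c := sub_eq_zero.mp h0
  rw [hc, ← map_ofNat (algebraMap K F) 256, ← map_add, ← map_pow, ← map_pow] at hid
  rcases eq_or_ne c 0 with rfl | hc0
  · rw [zero_pow (by norm_num), map_zero, mul_zero] at hid
    have := (_root_.map_eq_zero (algebraMap K F)).mp hid.symm
    norm_num at this
  · apply htr ((c + 256) ^ 3 / c ^ 2)
    rw [sub_eq_zero, map_div₀, ← hid, mul_div_assoc, div_self, mul_one]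
    exact s18rs_const_ne_zero (pow_ne_zero _ hc0)

end PackTwo

section PackThree

variable {K F : Type*} [Field K] [CharZero K] [Field F] [Algebra K F] (P : Place K F)

/-- THE RAMIFICATION OF `h₃` from that of `j`: `j h³ = (h + 27)(h + 243)³`. -/
theorem s18rs_pack_three (h j : F) (hid : j * h ^ 3 = (h + 27) * (h + 243) ^ 3)
    (htr : ∀ c : K, j - algebraMap K F c ≠ 0) (M : ℕ)
    (h0 : 0 < P.ord j → P.ord j ∣ (3 : ℤ))
    (h1728 : 0 < P.ord (j - algebraMap K F 1728) → P.ord (j - algebraMap K F 1728) ∣ (2 : ℤ))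
    (hgen : ∀ c : K, c ≠ 0 → c ≠ 1728 → 0 < P.ord (j - algebraMap K F c) →
      P.ord (j - algebraMap K F c) = 1)
    (hcusp : P.ord j < 0 → P.ord j ∣ (M : ℤ)) :
    (∀ b : K, b ≠ 0 → b ≠ -27 → 0 < P.ord (h - algebraMap K F b) →
      P.ord (h - algebraMap K F b) = 1) ∧
    (0 < P.ord (h - algebraMap K F (-27)) → P.ord (h - algebraMap K F (-27)) ∣ (3 : ℤ)) ∧
    (0 < P.ord h → P.ord h ∣ (M : ℤ)) ∧ (P.ord h < 0 → P.ord h ∣ (M : ℤ)) := by
  set R : K[X] := (X + C 27) * (X + C 243) ^ 3 with hR
  have hidR : j * h ^ 3 = aeval h R := by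
    rw [hid, hR]; simp [map_ofNat]
  have hj0 : j - algebraMap K F 0 = j := by rw [map_zero, sub_zero]
  refine ⟨fun b hb hb27 hpos => ?_, fun hpos => ?_, fun hpos => ?_, fun hneg => ?_⟩
  · -- generic points
    have hRb : R.eval b = (b + 27) * (b + 243) ^ 3 := by rw [hR]; simp
    by_cases hc0 : R.eval b / b ^ 3 = 0
    · -- `b = -243`
      have hb243 : b = -243 := by
        rw [div_eq_zero_iff, hRb] at hc0
        rcases hc0 with h1 | h1
        · rcases mul_eq_zero.mp h1 with h2 | h2
          · exact absurd (by linear_combination h2) hb27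
          · have := pow_eq_zero_iff (n := 3) (by norm_num) |>.mp h2
            linear_combination this
        · exact absurd (pow_eq_zero_iff (n := 3) (by norm_num) |>.mp h1) hb
      subst hb243
      have key := s18rs_transfer P h j 3 3 (-243) 0 (X + C 27) hb (by simp; norm_num)
        (by
          rw [hj0, hid]
          simp only [map_add, map_neg, aeval_X, map_ofNat]
          ring) hpos
      rw [hj0] at key
      have hjpos : 0 < P.ord j := by rw [key]; positivity
      have := h0 hjpos
      rw [key] at this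
      exact s18rs_eq_one_of_mul_dvd (m := 3) (by norm_num) hpos (by exact_mod_cast this)
    by_cases hc1 : R.eval b / b ^ 3 = 1728
    · -- `b² - 486 b - 19683 = 0`
      have hQ : b ^ 2 - 486 * b - 19683 = 0 := by
        rw [div_eq_iff (pow_ne_zero _ hb), hRb] at hc1
        have h2 : (b ^ 2 - 486 * b - 19683) ^ 2 = 0 := by linear_combination hc1
        exact pow_eq_zero_iff (n := 2) (by norm_num) |>.mp h2
      have hQF : algebraMap K F b ^ 2 - 486 * algebraMap K F b - 19683 = 0 := by
        have := congrArg (algebraMap K F) hQ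
        simpa only [map_sub, map_mul, map_pow, map_ofNat, map_zero] using this
      have hbb' : b - (486 - b) ≠ 0 := by
        intro h2
        have h3 : b = 243 := by linear_combination h2 / 2
        rw [h3] at hQ
        norm_num at hQ
      have key := s18rs_transfer P h j 3 2 b 1728 ((X - C (486 - b)) ^ 2) hb
        (by simp only [eval_pow, eval_sub, eval_X, eval_C]; exact pow_ne_zero _ hbb')
        (by
          simp only [map_pow, map_sub, aeval_X, aeval_C, map_ofNat]
          linear_combination hid + (2 * (h ^ 2 - 486 * h - 19683) -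
            (algebraMap K F b ^ 2 - 486 * algebraMap K F b - 19683)) * hQF) hpos
      have hjpos : 0 < P.ord (j - algebraMap K F 1728) := by rw [key]; positivity
      have := h1728 hjpos
      rw [key] at this
      exact s18rs_eq_one_of_mul_dvd (m := 2) (by norm_num) hpos (by exact_mod_cast this)
    · have hle := s18rs_generic P h j 3 R hidR b hb hpos (htr _)
      have h1 := hgen _ hc0 hc1 (lt_of_lt_of_le hpos hle)
      omega
  · -- `h = -27`
    have key := s18rs_transfer P h j 3 1 (-27) 0 ((X + C 243) ^ 3) (by norm_num)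
      (by simp; norm_num)
      (by
        rw [hj0, hid]
        simp only [map_pow, map_add, map_neg, aeval_X, map_ofNat]
        ring)
      hpos
    rw [hj0] at key
    have hjpos : 0 < P.ord j := by rw [key]; simpa using hpos
    have := h0 hjpos
    rw [key] at this
    simpa using this
  · -- `h = 0`
    have hpos' : 0 < P.ord (h - algebraMap K F 0) := by rwa [map_zero, sub_zero]
    obtain ⟨hR0, hRord⟩ := s18rs_ord_aeval P h 0 hpos' R (by rw [hR]; simp)
    have hh0 : h ≠ 0 := by
      intro h0'; rw [h0', Place.ord_zero] at hpos; exact lt_irrefl _ hpos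
    rw [← hidR] at hR0 hRord
    have hjne : j ≠ 0 := left_ne_zero_of_mul hR0
    rw [P.ord_mul hjne (pow_ne_zero _ hh0), s18rs_ord_pow] at hRord
    have hj : P.ord j = -3 * P.ord h := by push_cast at hRord; linarith
    have := hcusp (by rw [hj]; linarith)
    rw [hj] at this
    exact dvd_trans (Dvd.intro_left _ rfl) this
  · -- `h = ∞`
    have hh0 : h ≠ 0 := by
      intro h0'; rw [h0', Place.ord_zero] at hneg; exact lt_irrefl _ hneg
    have h1 : P.ord (h + 27) = P.ord h := by
      rw [← map_ofNat (algebraMap K F) 27]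
      exact s18rs_ord_add_of_lt P hh0 (Or.inr (by rw [PlaceOrd.ord_algebraMap]; exact hneg))
    have h1' : P.ord (h + 243) = P.ord h := by
      rw [← map_ofNat (algebraMap K F) 243]
      exact s18rs_ord_add_of_lt P hh0 (Or.inr (by rw [PlaceOrd.ord_algebraMap]; exact hneg))
    have h2 : h + 27 ≠ 0 := by
      intro h0'; rw [h0', Place.ord_zero] at h1; omega
    have h2' : h + 243 ≠ 0 := by
      intro h0'; rw [h0', Place.ord_zero] at h1'; omega
    have hR0 : j * h ^ 3 ≠ 0 := by rw [hid]; exact mul_ne_zero h2 (pow_ne_zero _ h2')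
    have hjne : j ≠ 0 := left_ne_zero_of_mul hR0
    have := congrArg P.ord hid
    rw [P.ord_mul hjne (pow_ne_zero _ hh0), P.ord_mul h2 (pow_ne_zero _ h2'), s18rs_ord_pow,
      s18rs_ord_pow, h1, h1'] at this
    have hj : P.ord j = P.ord h := by push_cast at this; linarith
    rw [← hj]
    exact hcusp (by rw [hj]; exact hneg)

/-- `h₃` is not constant. -/
theorem s18rs_ne_three (h j : F) (hid : j * h ^ 3 = (h + 27) * (h + 243) ^ 3)
    (htr : ∀ c : K, j - algebraMap K F c ≠ 0) (c : K) : h - algebraMap K F c ≠ 0 := by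
  intro h0
  have hc : h = algebraMap K F c := sub_eq_zero.mp h0
  rw [hc, ← map_ofNat (algebraMap K F) 27, ← map_ofNat (algebraMap K F) 243, ← map_add, ← map_add,
    ← map_pow, ← map_pow, ← map_mul] at hid
  rcases eq_or_ne c 0 with rfl | hc0
  · rw [zero_pow (by norm_num), map_zero, mul_zero] at hid
    have := (_root_.map_eq_zero (algebraMap K F)).mp hid.symm
    norm_num at this
  · apply htr ((c + 27) * (c + 243) ^ 3 / c ^ 3)
    rw [sub_eq_zero, map_div₀, ← hid, mul_div_assoc, div_self, mul_one]
    exact s18rs_const_ne_zero (pow_ne_zero _ hc0)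

end PackThree

end Fermat.Agent.S18
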