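import Mathlib
import Fermat.Agent.S18.RH.Main
import Fermat.Agent.S18.RH.Restrict
import Fermat.Agent.S18.RH.SmallAlg
import Fermat.Agent.S18.H.Defs

/-!
# S18, package RH : the ramification hypotheses for `F_E(aN)(y) / E(h_a)`, `ℓ ∈ {2, 3}`
(`s18rs_RH_small` = `s18_RH_small` of `S18/Core/Small.lean`, with the Hauptmodul identities
`s18h_identity_two`, `s18h_identity_three` and the membership `s18h_mem` as explicit hypotheses)

The generic chart theorem `s18r_chart` for the coordinate `h_a` (chart at `0`: `S = {0, s₀}`,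
weights `aN, w₀`) and for `1/h_a` (chart at `∞`: `S' = {0, 1/s₀}`, weights `aN, w₀`), where
`(s₀, w₀) = (-64, 2)` for `a = 2` and `(-27, 3)` for `a = 3`, fed with
* (R) `S18/RH/R.lean` (helper1): ramification of `F_ℚ̄(aN) / ℚ̄(j)`;
* `S18/RH/SmallAlg.lean`: transfer of the ramification along `j = R_a(h)`;
* `s18r_place_restrict` (helper5): `hdiv` at level `N` gives `hdiv` at level `aN`.
-/

set_option autoImplicit false
set_option linter.unusedSectionVars false
set_option linter.unusedVariables false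
set_option linter.style.haveILetI false
set_option synthInstance.maxHeartbeats 400000

noncomputable section

namespace Fermat.Agent.S18

open ModularCurve AlgebraicCurve IsLocalRing Polynomial IntermediateField Fermat.Agent.S24

local notation "Qb" => AlgebraicClosure ℚ

section Prep

/-- base change of the Hauptmodul. -/
theorem s18rs_coeffMap_hq {R S : Type*} [CommRing R] [CommRing S] (f : R →+* S) (a : ℕ) [NeZero a]
    (e : ℕ) : coeffMap f (s18hq a e R) = s18hq a e S := by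
  have hcomp : ∀ u : PowerSeries ℤ, PowerSeries.map f (PowerSeries.map (Int.castRingHom R) u) =
      PowerSeries.map (Int.castRingHom S) u := by
    intro u
    rw [← RingHom.comp_apply (PowerSeries.map f) (PowerSeries.map (Int.castRingHom R)),
      ← PowerSeries.map_comp, RingHom.ext_int (f.comp (Int.castRingHom R)) (Int.castRingHom S)]
  rw [s18hq, s18hq, map_mul, map_mul, coeffMap_single, map_one, coeffMap_ofPowerSeries,
    coeffMap_qExpand, coeffMap_ofPowerSeries, hcomp, hcomp]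

/-- `F₁ / F₀` is algebraic if `F₁` is finite over `K(t)`, `t ∈ F₀`. -/
theorem s18rs_isAlgebraic_of_le {K Ω : Type*} [Field K] [Field Ω] [Algebra K Ω]
    (F₀ F₁ : IntermediateField K Ω) (hle : F₀ ≤ F₁) (t : F₁) (ht : (t : Ω) ∈ F₀)
    [FiniteDimensional K⟮t⟯ F₁] :
    @Algebra.IsAlgebraic F₀ F₁ _ _ (IntermediateField.inclusion hle).toRingHom.toAlgebra := by
  letI : Algebra F₀ F₁ := (IntermediateField.inclusion hle).toRingHom.toAlgebra
  have hsub : K⟮t⟯ ≤ IntermediateField.restrict hle := by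
    rw [IntermediateField.adjoin_le_iff]
    rintro x hx
    rw [Set.mem_singleton_iff] at hx
    subst hx
    exact (mem_restrict hle x).mpr ht
  let ψ : K⟮t⟯ →+* F₀ :=
    { toFun := fun z => ⟨((z : F₁) : Ω), (mem_restrict hle _).mp (hsub z.2)⟩
      map_one' := rfl
      map_mul' := fun _ _ => rfl
      map_zero' := rfl
      map_add' := fun _ _ => rfl }
  letI : Algebra K⟮t⟯ F₀ := ψ.toAlgebra
  haveI : IsScalarTower K⟮t⟯ F₀ F₁ := IsScalarTower.of_algebraMap_eq (fun z => rfl)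
  refine ⟨fun x => ?_⟩
  have hx : IsAlgebraic K⟮t⟯ x := Algebra.IsAlgebraic.isAlgebraic x
  exact hx.extendScalars ψ.injective

theorem s18rs_bar_le {N M : ℕ} [NeZero N] [NeZero M] (h : N ∣ M) :
    modularFunctionFieldBar N ≤ modularFunctionFieldBar M := by
  apply IntermediateField.adjoin.mono
  exact Set.image_mono (full_degeneracy_le h)

end Prep

section Main

variable (A : ValuationSubring Qb) (E : IntermediateField ℚ Qb)

/-- THE TWO CHARTS for a coordinate `t` of `F_E(aN)` whose ramification over `ℚ̄` is concentrated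
in `0, ∞, -n₀` with indices dividing `aN, aN, w₀`. -/
theorem s18rs_chart_pair (N : ℕ) [NeZero N] {ℓ : ℕ} [Fact ℓ.Prime] (hℓN : ¬ ℓ ∣ N)
    (hA : A.LiesOverPrime ℓ) (a : ℕ) [NeZero a] (hℓa : ¬ ℓ ∣ a)
    [FiniteDimensional ℚ E]
    [IsDiscreteValuationRing (s18dVal A E)] (ϖ : s18dVal A E) (hϖ : Irreducible ϖ)
    (ζ : E) (hζ : IsPrimitiveRoot ζ (6 * (a * N)))
    (p : ℕ) (hp : p.Prime)
    (v₁ v₂ : LaurentSeries (s18dVal A E))
    (hv₁ : s18vIncl (s18dVal A E) E v₁ ∈ modularFunctionFieldFullC E N)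
    (hv₂ : s18vIncl (s18dVal A E) E v₂ ∈ modularFunctionFieldFullC E N) (hv₂0 : v₂ ≠ 0)
    (y : LaurentSeries E)
    (hy : y ^ p * s18vIncl (s18dVal A E) E v₂ = s18vIncl (s18dVal A E) E v₁)
    (hdiv : ∀ (h₁ : s18dUp E (s18vIncl (s18dVal A E) E v₁) ∈ modularFunctionFieldBar N)
      (h₂ : s18dUp E (s18vIncl (s18dVal A E) E v₂) ∈ modularFunctionFieldBar N)
      (P : Place (AlgebraicClosure ℚ) (modularFunctionFieldBar N)),
      (p : ℤ) ∣ P.ord ⟨_, h₁⟩ - P.ord ⟨_, h₂⟩)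
    (t : modularFunctionFieldFullC E (a * N))
    (n₀ w₀ m₀ : ℕ) (hn₀ : ¬ ℓ ∣ n₀) (hw₀ : ¬ ℓ ∣ w₀) (hm₀ : 6 * (a * N) = m₀ * w₀)
    (hne : ∀ c : Qb, (⟨s18dUp E t, s18r_up_mem E (a * N) _ t.2⟩ : modularFunctionFieldBar (a * N)) -
      algebraMap Qb (modularFunctionFieldBar (a * N)) c ≠ 0)
    (hpack : ∀ P : Place Qb (modularFunctionFieldBar (a * N)),
      (∀ b : Qb, b ≠ 0 → b ≠ -(n₀ : Qb) →
        0 < P.ord ((⟨s18dUp E t, s18r_up_mem E (a * N) _ t.2⟩ : modularFunctionFieldBar (a * N)) -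
          algebraMap Qb (modularFunctionFieldBar (a * N)) b) →
        P.ord ((⟨s18dUp E t, s18r_up_mem E (a * N) _ t.2⟩ : modularFunctionFieldBar (a * N)) -
          algebraMap Qb (modularFunctionFieldBar (a * N)) b) = 1) ∧
      (0 < P.ord ((⟨s18dUp E t, s18r_up_mem E (a * N) _ t.2⟩ : modularFunctionFieldBar (a * N)) -
          algebraMap Qb (modularFunctionFieldBar (a * N)) (-(n₀ : Qb))) →
        P.ord ((⟨s18dUp E t, s18r_up_mem E (a * N) _ t.2⟩ : modularFunctionFieldBar (a * N)) -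
          algebraMap Qb (modularFunctionFieldBar (a * N)) (-(n₀ : Qb))) ∣ ((w₀ : ℕ) : ℤ)) ∧
      (0 < P.ord (⟨s18dUp E t, s18r_up_mem E (a * N) _ t.2⟩ : modularFunctionFieldBar (a * N)) →
        P.ord (⟨s18dUp E t, s18r_up_mem E (a * N) _ t.2⟩ : modularFunctionFieldBar (a * N)) ∣
          ((a * N : ℕ) : ℤ)) ∧
      (P.ord (⟨s18dUp E t, s18r_up_mem E (a * N) _ t.2⟩ : modularFunctionFieldBar (a * N)) < 0 →
        P.ord (⟨s18dUp E t, s18r_up_mem E (a * N) _ t.2⟩ : modularFunctionFieldBar (a * N)) ∣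
          ((a * N : ℕ) : ℤ))) :
    ∃ S S' : Finset (s18dVal A E),
      S18Chart (s18dVal A E) E ϖ (s18cLift (modularFunctionFieldFullC E (a * N)) y t) S ∧
      S18Chart (s18dVal A E) E ϖ (s18cLift (modularFunctionFieldFullC E (a * N)) y t)⁻¹ S' := by
  classical
  have hℓp : ℓ.Prime := Fact.out
  have hℓM : ¬ ℓ ∣ a * N := fun h => ((Nat.Prime.dvd_mul hℓp).mp h).elim hℓa hℓN
  have hNM : N ∣ a * N := dvd_mul_left N a
  have hMpos : 0 < 6 * (a * N) := Nat.mul_pos (by norm_num) (NeZero.pos (a * N))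
  have hleE : modularFunctionFieldFullC E N ≤ modularFunctionFieldFullC E (a * N) :=
    full_degeneracyC_le E hNM
  have hleB : modularFunctionFieldBar N ≤ modularFunctionFieldBar (a * N) := s18rs_bar_le hNM
  have hn₀0 : n₀ ≠ 0 := fun h => hn₀ (h ▸ dvd_zero ℓ)
  have hn₀Q : (n₀ : Qb) ≠ 0 := Nat.cast_ne_zero.mpr hn₀0
  have hun₀ : IsUnit ((n₀ : ℕ) : s18dVal A E) := s18r_isUnit_natCast A E hA n₀ hn₀
  have huM : IsUnit (((a * N : ℕ) : ℕ) : s18dVal A E) := s18r_isUnit_natCast A E hA (a * N) hℓM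
  have huw : IsUnit ((w₀ : ℕ) : s18dVal A E) := s18r_isUnit_natCast A E hA w₀ hw₀
  have hζM : IsPrimitiveRoot (ζ ^ 6) (a * N) := hζ.pow hMpos rfl
  have hζw : IsPrimitiveRoot (ζ ^ m₀) w₀ := hζ.pow hMpos hm₀
  have hx₂ : s18vIncl (s18dVal A E) E v₂ ≠ 0 := by
    intro h
    apply hv₂0
    ext k
    have := congrArg (fun s => HahnSeries.coeff s k) h
    simpa using this
  have hWN : ∀ W₁ : ValuationSubring (modularFunctionFieldBar N), S18IsPlace Qb W₁ →
      ∃ P : Place Qb (modularFunctionFieldBar N), P.toValuationSubring = W₁ := by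
    intro W₁ hW₁
    haveI := finiteDimensional_jBar N
    exact s18r_exists_place (jBar N) (transcendental_jBar N) W₁ hW₁
  have hW : ∀ W₁ : ValuationSubring (modularFunctionFieldBar (a * N)), S18IsPlace Qb W₁ →
      ∃ P : Place Qb (modularFunctionFieldBar (a * N)), P.toValuationSubring = W₁ := by
    intro W₁ hW₁
    haveI := finiteDimensional_jBar (a * N)
    exact s18r_exists_place (jBar (a * N)) (transcendental_jBar (a * N)) W₁ hW₁
  -- `hdiv` at level `a N`
  have hdivM : ∀ P' : Place Qb (modularFunctionFieldBar (a * N)),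
      (p : ℤ) ∣ P'.ord (⟨s18dUp E (s18vIncl (s18dVal A E) E v₁),
          s18r_up_mem E (a * N) _ (hleE hv₁)⟩ : modularFunctionFieldBar (a * N)) -
        P'.ord (⟨s18dUp E (s18vIncl (s18dVal A E) E v₂),
          s18r_up_mem E (a * N) _ (hleE hv₂)⟩ : modularFunctionFieldBar (a * N)) := by
    intro P'
    letI : Algebra (modularFunctionFieldBar N) (modularFunctionFieldBar (a * N)) :=
      (IntermediateField.inclusion hleB).toRingHom.toAlgebra
    haveI : IsScalarTower Qb (modularFunctionFieldBar N) (modularFunctionFieldBar (a * N)) :=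
      IsScalarTower.of_algebraMap_eq (fun _ => rfl)
    haveI := finiteDimensional_jBar (a * N)
    haveI : Algebra.IsAlgebraic (modularFunctionFieldBar N) (modularFunctionFieldBar (a * N)) :=
      s18rs_isAlgebraic_of_le _ _ hleB (jBar (a * N)) (by rw [coe_jBar]; exact (jBar N).2)
    obtain ⟨P, r, hr, -, hord⟩ := s18r_place_restrict hWN P'
    have e1 : (⟨s18dUp E (s18vIncl (s18dVal A E) E v₁),
          s18r_up_mem E (a * N) _ (hleE hv₁)⟩ : modularFunctionFieldBar (a * N)) =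
        algebraMap (modularFunctionFieldBar N) (modularFunctionFieldBar (a * N))
          ⟨s18dUp E (s18vIncl (s18dVal A E) E v₁), s18r_up_mem E N _ hv₁⟩ := rfl
    have e2 : (⟨s18dUp E (s18vIncl (s18dVal A E) E v₂),
          s18r_up_mem E (a * N) _ (hleE hv₂)⟩ : modularFunctionFieldBar (a * N)) =
        algebraMap (modularFunctionFieldBar N) (modularFunctionFieldBar (a * N))
          ⟨s18dUp E (s18vIncl (s18dVal A E) E v₂), s18r_up_mem E N _ hv₂⟩ := rfl
    rw [e1, e2, hord, hord, ← mul_sub]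
    exact Dvd.dvd.mul_left (hdiv _ _ P) _
  -- the points
  have hs₀E : algebraMap E Qb ((-(n₀ : s18dVal A E) : s18dVal A E) : E) = -(n₀ : Qb) := by
    have : ((-(n₀ : s18dVal A E) : s18dVal A E) : E) = -(n₀ : E) := rfl
    rw [this, map_neg, map_natCast]
  have hs₀0 : (-(n₀ : s18dVal A E) : s18dVal A E) ≠ 0 := neg_ne_zero.mpr hun₀.ne_zero
  set u : s18dVal A E := ((hun₀.unit⁻¹ : (s18dVal A E)ˣ) : s18dVal A E) with hu
  have huu : IsUnit u := Units.isUnit _
  have hu0 : -u ≠ 0 := neg_ne_zero.mpr huu.ne_zero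
  have huE : algebraMap E Qb ((-u : s18dVal A E) : E) = -(n₀ : Qb)⁻¹ := by
    have h1 : u * ((n₀ : ℕ) : s18dVal A E) = 1 := by
      rw [hu]
      have := hun₀.unit.inv_mul
      rwa [IsUnit.unit_spec] at this
    have h2 : (u : E) * (n₀ : E) = 1 := congrArg Subtype.val h1
    have h3 : algebraMap E Qb (u : E) * (n₀ : Qb) = 1 := by
      have := congrArg (algebraMap E Qb) h2
      rwa [map_mul, map_natCast, map_one] at this
    have h4 : ((-u : s18dVal A E) : E) = -(u : E) := rfl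
    rw [h4, map_neg, eq_inv_of_mul_eq_one_left h3]
  refine ⟨{0, -(n₀ : s18dVal A E)}, {0, -u}, ?_, ?_⟩
  · -- the chart at `0`
    refine s18r_chart A E ϖ hϖ (modularFunctionFieldFullC E (a * N))
      (modularFunctionFieldBar (a * N)) (s18r_up_mem E (a * N)) hW p hp.ne_zero _ _ (hleE hv₁)
      (hleE hv₂) hx₂ y hy hdivM t hne {0, -(n₀ : s18dVal A E)}
      (fun s => if s = 0 then a * N else w₀) ?_ ?_ ?_ ?_
    · -- separation
      intro s hs s' hs' hss'
      simp only [Finset.mem_insert, Finset.mem_singleton] at hs hs'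
      rcases hs with rfl | rfl <;> rcases hs' with rfl | rfl
      · exact absurd rfl hss'
      · rw [zero_sub, neg_neg]; exact hun₀
      · rw [sub_zero]; exact hun₀.neg
      · exact absurd rfl hss'
    · -- weights
      intro s hs
      simp only [Finset.mem_insert, Finset.mem_singleton] at hs
      rcases hs with rfl | rfl
      · rw [if_pos rfl]; exact ⟨huM, ζ ^ 6, hζM⟩
      · rw [if_neg hs₀0]; exact ⟨huw, ζ ^ m₀, hζw⟩
    · -- generic points
      intro P b hb hpos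
      have hb0 : b ≠ 0 := by
        have := hb 0 (by simp)
        simpa using this
      have hbs : b ≠ -(n₀ : Qb) := by
        have := hb (-(n₀ : s18dVal A E)) (by simp)
        rwa [hs₀E] at this
      exact (hpack P).1 b hb0 hbs hpos
    · -- special points
      intro s hs P hpos
      simp only [Finset.mem_insert, Finset.mem_singleton] at hs
      rcases hs with rfl | rfl
      · rw [if_pos rfl]
        have e : algebraMap Qb (modularFunctionFieldBar (a * N))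
            (algebraMap E Qb ((0 : s18dVal A E) : E)) = 0 := by simp
        rw [e, sub_zero] at hpos ⊢
        exact (hpack P).2.2.1 hpos
      · rw [if_neg hs₀0]
        rw [hs₀E] at hpos ⊢
        exact (hpack P).2.1 hpos
  · -- the chart at `∞`
    have hlift : s18cLift (modularFunctionFieldFullC E (a * N)) y t⁻¹ =
        (s18cLift (modularFunctionFieldFullC E (a * N)) y t)⁻¹ := Subtype.ext rfl
    have htb : (⟨s18dUp E ((t⁻¹ : modularFunctionFieldFullC E (a * N)) : LaurentSeries E),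
        s18r_up_mem E (a * N) _ (t⁻¹ : modularFunctionFieldFullC E (a * N)).2⟩ :
          modularFunctionFieldBar (a * N)) =
        (⟨s18dUp E t, s18r_up_mem E (a * N) _ t.2⟩ : modularFunctionFieldBar (a * N))⁻¹ := by
      apply Subtype.ext
      show s18dUp E ((t : LaurentSeries E)⁻¹) = (s18dUp E (t : LaurentSeries E))⁻¹
      rw [map_inv₀]
    rw [← hlift]
    refine s18r_chart A E ϖ hϖ (modularFunctionFieldFullC E (a * N))
      (modularFunctionFieldBar (a * N)) (s18r_up_mem E (a * N)) hW p hp.ne_zero _ _ (hleE hv₁)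
      (hleE hv₂) hx₂ y hy hdivM t⁻¹ ?_ {0, -u}
      (fun s => if s = 0 then a * N else w₀) ?_ ?_ ?_ ?_
    · -- `t̄⁻¹ - c ≠ 0`
      intro c h
      rw [htb] at h
      have htb0 : (⟨s18dUp E t, s18r_up_mem E (a * N) _ t.2⟩ :
          modularFunctionFieldBar (a * N)) ≠ 0 := by
        have := hne 0
        rwa [map_zero, sub_zero] at this
      have hc0 : c ≠ 0 := by
        rintro rfl
        rw [map_zero, sub_zero] at h
        exact inv_ne_zero htb0 h
      apply hne c⁻¹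
      rw [sub_eq_zero] at h ⊢
      rw [map_inv₀, ← h, inv_inv]
    · -- separation
      intro s hs s' hs' hss'
      simp only [Finset.mem_insert, Finset.mem_singleton] at hs hs'
      rcases hs with rfl | rfl <;> rcases hs' with rfl | rfl
      · exact absurd rfl hss'
      · rw [zero_sub, neg_neg]; exact huu
      · rw [sub_zero]; exact huu.neg
      · exact absurd rfl hss'
    · -- weights
      intro s hs
      simp only [Finset.mem_insert, Finset.mem_singleton] at hs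
      rcases hs with rfl | rfl
      · rw [if_pos rfl]; exact ⟨huM, ζ ^ 6, hζM⟩
      · rw [if_neg hu0]; exact ⟨huw, ζ ^ m₀, hζw⟩
    · -- generic points
      intro P b hb hpos
      rw [htb] at hpos ⊢
      have hb0 : b ≠ 0 := by
        have := hb 0 (by simp)
        simpa using this
      have hbu : b ≠ -(n₀ : Qb)⁻¹ := by
        have := hb (-u) (by simp)
        rwa [huE] at this
      have heq := s18r_ord_inv_sub P _ b hb0 hpos
      rw [heq] at hpos ⊢
      refine (hpack P).1 b⁻¹ (inv_ne_zero hb0) (fun h => hbu ?_) hpos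
      rw [← inv_inv b, h, inv_neg]
    · -- special points
      intro s hs P hpos
      simp only [Finset.mem_insert, Finset.mem_singleton] at hs
      rw [htb] at hpos ⊢
      rcases hs with rfl | rfl
      · rw [if_pos rfl]
        have e : algebraMap Qb (modularFunctionFieldBar (a * N))
            (algebraMap E Qb ((0 : s18dVal A E) : E)) = 0 := by simp
        rw [e, sub_zero, Place.ord_inv] at hpos ⊢
        have hneg : P.ord (⟨s18dUp E t, s18r_up_mem E (a * N) _ t.2⟩ :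
            modularFunctionFieldBar (a * N)) < 0 := by omega
        exact (neg_dvd).mpr ((hpack P).2.2.2 hneg)
      · rw [if_neg hu0]
        rw [huE] at hpos ⊢
        have hne' : (-(n₀ : Qb)⁻¹) ≠ 0 := neg_ne_zero.mpr (inv_ne_zero hn₀Q)
        have heq := s18r_ord_inv_sub P _ _ hne' hpos
        rw [heq, inv_neg, inv_inv] at hpos ⊢
        exact (hpack P).2.1 hpos

end Main

section Inst

variable (A : ValuationSubring Qb) (E : IntermediateField ℚ Qb)

theorem s18rs_coe_jBar_eq (M : ℕ) [NeZero M] :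
    ((jBar M : modularFunctionFieldBar M) : LaurentSeries Qb) = jqModC Qb := by
  rw [coe_jBar, coeffEmb, ← jqModC_rat, coeffMap_jqModC]

theorem s18rs_htr (M : ℕ) [NeZero M] (c : Qb) :
    jBar M - algebraMap Qb (modularFunctionFieldBar M) c ≠ 0 := fun h =>
  transcendental_jBar M (by rw [sub_eq_zero.mp h]; exact isAlgebraic_algebraMap c)

/-- `j h² = (h + 256)³` in `F_ℚ̄(M)`. -/
theorem s18rs_bar_two [NeZero 2]
    (hid2 : jqModC ℤ * s18hq 2 24 ℤ ^ 2 = (s18hq 2 24 ℤ + 256) ^ 3) (M : ℕ) [NeZero M]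
    (hmem : s18hq 2 24 E ∈ modularFunctionFieldFullC E M) :
    jBar M * (⟨s18dUp E (s18hq 2 24 E), s18r_up_mem E M _ hmem⟩ : modularFunctionFieldBar M) ^ 2 =
      ((⟨s18dUp E (s18hq 2 24 E), s18r_up_mem E M _ hmem⟩ : modularFunctionFieldBar M) + 256) ^ 3 := by
  apply Subtype.ext
  have h := congrArg (coeffMap (Int.castRingHom Qb)) hid2
  rw [map_mul, map_pow, map_pow, map_add, coeffMap_jqModC, s18rs_coeffMap_hq, map_ofNat] at h
  push_cast
  rw [s18rs_coe_jBar_eq, s18rs_coeffMap_hq]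
  exact h

/-- `j h³ = (h + 27)(h + 243)³` in `F_ℚ̄(M)`. -/
theorem s18rs_bar_three [NeZero 3]
    (hid3 : jqModC ℤ * s18hq 3 12 ℤ ^ 3 = (s18hq 3 12 ℤ + 27) * (s18hq 3 12 ℤ + 243) ^ 3)
    (M : ℕ) [NeZero M] (hmem : s18hq 3 12 E ∈ modularFunctionFieldFullC E M) :
    jBar M * (⟨s18dUp E (s18hq 3 12 E), s18r_up_mem E M _ hmem⟩ : modularFunctionFieldBar M) ^ 3 =
      ((⟨s18dUp E (s18hq 3 12 E), s18r_up_mem E M _ hmem⟩ : modularFunctionFieldBar M) + 27) *
      ((⟨s18dUp E (s18hq 3 12 E), s18r_up_mem E M _ hmem⟩ : modularFunctionFieldBar M) + 243) ^ 3 := by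
  apply Subtype.ext
  have h := congrArg (coeffMap (Int.castRingHom Qb)) hid3
  rw [map_mul, map_mul, map_pow, map_pow, map_add, map_add, coeffMap_jqModC, s18rs_coeffMap_hq,
    map_ofNat, map_ofNat] at h
  push_cast
  rw [s18rs_coe_jBar_eq, s18rs_coeffMap_hq]
  exact h

/-- `ℓ = 3`, `a = 2`. -/
theorem s18rs_RH_two [NeZero 2]
    (hid2 : jqModC ℤ * s18hq 2 24 ℤ ^ 2 = (s18hq 2 24 ℤ + 256) ^ 3)
    (N : ℕ) [NeZero N] {ℓ : ℕ} [Fact ℓ.Prime] (hℓ3 : ℓ = 3) (hℓN : ¬ ℓ ∣ N)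
    (hA : A.LiesOverPrime ℓ) [FiniteDimensional ℚ E]
    [IsDiscreteValuationRing (s18dVal A E)] (ϖ : s18dVal A E) (hϖ : Irreducible ϖ)
    (ζ : E) (hζ : IsPrimitiveRoot ζ (6 * (2 * N)))
    (p : ℕ) (hp : p.Prime)
    (v₁ v₂ : LaurentSeries (s18dVal A E))
    (hv₁ : s18vIncl (s18dVal A E) E v₁ ∈ modularFunctionFieldFullC E N)
    (hv₂ : s18vIncl (s18dVal A E) E v₂ ∈ modularFunctionFieldFullC E N) (hv₂0 : v₂ ≠ 0)
    (y : LaurentSeries E)
    (hy : y ^ p * s18vIncl (s18dVal A E) E v₂ = s18vIncl (s18dVal A E) E v₁)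
    (hdiv : ∀ (h₁ : s18dUp E (s18vIncl (s18dVal A E) E v₁) ∈ modularFunctionFieldBar N)
      (h₂ : s18dUp E (s18vIncl (s18dVal A E) E v₂) ∈ modularFunctionFieldBar N)
      (P : Place (AlgebraicClosure ℚ) (modularFunctionFieldBar N)),
      (p : ℤ) ∣ P.ord ⟨_, h₁⟩ - P.ord ⟨_, h₂⟩)
    (hmem : s18hq 2 24 E ∈ modularFunctionFieldFullC E (2 * N)) :
    ∃ S S' : Finset (s18dVal A E),
      S18Chart (s18dVal A E) E ϖ
        (s18cLift (modularFunctionFieldFullC E (2 * N)) y ⟨s18hq 2 24 E, hmem⟩) S ∧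
      S18Chart (s18dVal A E) E ϖ
        (s18cLift (modularFunctionFieldFullC E (2 * N)) y ⟨s18hq 2 24 E, hmem⟩)⁻¹ S' := by
  subst hℓ3
  have hid := s18rs_bar_two E hid2 (2 * N) hmem
  refine s18rs_chart_pair A E N hℓN hA 2 (by decide) ϖ hϖ ζ hζ p hp v₁ v₂ hv₁ hv₂ hv₂0 y hy hdiv
    ⟨s18hq 2 24 E, hmem⟩ 64 2 (6 * N) (by decide) (by decide) (by ring) ?_ ?_
  · exact s18rs_ne_two _ _ hid (s18rs_htr _)
  · intro P
    have key := s18rs_pack_two P _ _ hid (s18rs_htr (2 * N)) (2 * N) (s18r_ord_dvd_zero (2 * N) P)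
      (s18r_ord_dvd_1728 (2 * N) P) (fun c hc0 hc1 => s18r_ord_eq_one (2 * N) c hc0 hc1 P)
      (s18r_ord_dvd_cusp (2 * N) P)
    have e64 : -((64 : ℕ) : Qb) = -64 := by norm_num
    rw [e64]
    exact_mod_cast key

/-- `ℓ = 2`, `a = 3`. -/
theorem s18rs_RH_three [NeZero 3]
    (hid3 : jqModC ℤ * s18hq 3 12 ℤ ^ 3 = (s18hq 3 12 ℤ + 27) * (s18hq 3 12 ℤ + 243) ^ 3)
    (N : ℕ) [NeZero N] {ℓ : ℕ} [Fact ℓ.Prime] (hℓ2 : ℓ = 2) (hℓN : ¬ ℓ ∣ N)
    (hA : A.LiesOverPrime ℓ) [FiniteDimensional ℚ E]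
    [IsDiscreteValuationRing (s18dVal A E)] (ϖ : s18dVal A E) (hϖ : Irreducible ϖ)
    (ζ : E) (hζ : IsPrimitiveRoot ζ (6 * (3 * N)))
    (p : ℕ) (hp : p.Prime)
    (v₁ v₂ : LaurentSeries (s18dVal A E))
    (hv₁ : s18vIncl (s18dVal A E) E v₁ ∈ modularFunctionFieldFullC E N)
    (hv₂ : s18vIncl (s18dVal A E) E v₂ ∈ modularFunctionFieldFullC E N) (hv₂0 : v₂ ≠ 0)
    (y : LaurentSeries E)
    (hy : y ^ p * s18vIncl (s18dVal A E) E v₂ = s18vIncl (s18dVal A E) E v₁)
    (hdiv : ∀ (h₁ : s18dUp E (s18vIncl (s18dVal A E) E v₁) ∈ modularFunctionFieldBar N)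
      (h₂ : s18dUp E (s18vIncl (s18dVal A E) E v₂) ∈ modularFunctionFieldBar N)
      (P : Place (AlgebraicClosure ℚ) (modularFunctionFieldBar N)),
      (p : ℤ) ∣ P.ord ⟨_, h₁⟩ - P.ord ⟨_, h₂⟩)
    (hmem : s18hq 3 12 E ∈ modularFunctionFieldFullC E (3 * N)) :
    ∃ S S' : Finset (s18dVal A E),
      S18Chart (s18dVal A E) E ϖ
        (s18cLift (modularFunctionFieldFullC E (3 * N)) y ⟨s18hq 3 12 E, hmem⟩) S ∧
      S18Chart (s18dVal A E) E ϖ
        (s18cLift (modularFunctionFieldFullC E (3 * N)) y ⟨s18hq 3 12 E, hmem⟩)⁻¹ S' := by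
  subst hℓ2
  have hid := s18rs_bar_three E hid3 (3 * N) hmem
  refine s18rs_chart_pair A E N hℓN hA 3 (by decide) ϖ hϖ ζ hζ p hp v₁ v₂ hv₁ hv₂ hv₂0 y hy hdiv
    ⟨s18hq 3 12 E, hmem⟩ 27 3 (6 * N) (by decide) (by decide) (by ring) ?_ ?_
  · exact s18rs_ne_three _ _ hid (s18rs_htr _)
  · intro P
    have key := s18rs_pack_three P _ _ hid (s18rs_htr (3 * N)) (3 * N)
      (s18r_ord_dvd_zero (3 * N) P)
      (s18r_ord_dvd_1728 (3 * N) P) (fun c hc0 hc1 => s18r_ord_eq_one (3 * N) c hc0 hc1 P)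
      (s18r_ord_dvd_cusp (3 * N) P)
    have e27 : -((27 : ℕ) : Qb) = -27 := by norm_num
    rw [e27]
    exact_mod_cast key

/-- (packages R' + U + D) THE RAMIFICATION HYPOTHESES for `F_E(aN)(y) / E(h_a)`, `ℓ ∈ {2, 3}`,
`a = 5 - ℓ`: `s18_RH_small` of `S18/Core/Small.lean`, with the Hauptmodul identities `hid2`,
`hid3` (`s18h_identity_two`, `s18h_identity_three`) and `hmem` (`s18h_mem`) as hypotheses. -/
theorem s18rs_RH_small
    (hid2 : jqModC ℤ * s18hq 2 24 ℤ ^ 2 = (s18hq 2 24 ℤ + 256) ^ 3)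
    (hid3 : jqModC ℤ * s18hq 3 12 ℤ ^ 3 = (s18hq 3 12 ℤ + 27) * (s18hq 3 12 ℤ + 243) ^ 3)
    (N : ℕ) [NeZero N] {ℓ : ℕ} [Fact ℓ.Prime] (hℓN : ¬ ℓ ∣ N)
    (hA : A.LiesOverPrime ℓ) (a : ℕ) [NeZero a] (ha : (ℓ = 2 ∧ a = 3) ∨ (ℓ = 3 ∧ a = 2))
    (ha23 : a = 2 ∨ a = 3)
    [FiniteDimensional ℚ E]
    [IsDiscreteValuationRing (s18dVal A E)] (ϖ : s18dVal A E) (hϖ : Irreducible ϖ)
    (ζ : E) (hζ : IsPrimitiveRoot ζ (6 * (a * N)))
    (p : ℕ) (hp : p.Prime) (hpℓ : p ≠ ℓ)
    (v₁ v₂ : LaurentSeries (s18dVal A E))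
    (hv₁ : s18vIncl (s18dVal A E) E v₁ ∈ modularFunctionFieldFullC E N)
    (hv₂ : s18vIncl (s18dVal A E) E v₂ ∈ modularFunctionFieldFullC E N) (hv₂0 : v₂ ≠ 0)
    (y : LaurentSeries E)
    (hy : y ^ p * s18vIncl (s18dVal A E) E v₂ = s18vIncl (s18dVal A E) E v₁)
    (hdiv : ∀ (h₁ : s18dUp E (s18vIncl (s18dVal A E) E v₁) ∈ modularFunctionFieldBar N)
      (h₂ : s18dUp E (s18vIncl (s18dVal A E) E v₂) ∈ modularFunctionFieldBar N)
      (P : Place (AlgebraicClosure ℚ) (modularFunctionFieldBar N)),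
      (p : ℤ) ∣ P.ord ⟨_, h₁⟩ - P.ord ⟨_, h₂⟩)
    (hmem : s18hq a (s18hExp a) E ∈ modularFunctionFieldFullC E (a * N)) :
    ∃ S S' : Finset (s18dVal A E),
      S18Chart (s18dVal A E) E ϖ
        (s18cLift (modularFunctionFieldFullC E (a * N)) y
          ⟨s18hq a (s18hExp a) E, hmem⟩) S ∧
      S18Chart (s18dVal A E) E ϖ
        (s18cLift (modularFunctionFieldFullC E (a * N)) y
          ⟨s18hq a (s18hExp a) E, hmem⟩)⁻¹ S' := by
  rcases ha with ⟨hℓ, rfl⟩ | ⟨hℓ, rfl⟩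
  · exact s18rs_RH_three A E hid3 N hℓ hℓN hA ϖ hϖ ζ hζ p hp v₁ v₂ hv₁ hv₂ hv₂0 y hy hdiv hmem
  · exact s18rs_RH_two A E hid2 N hℓ hℓN hA ϖ hϖ ζ hζ p hp v₁ v₂ hv₁ hv₂ hv₂0 y hy hdiv hmem

end Inst

end Fermat.Agent.S18
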